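/-
S55 leaf 16-SUNIT (helper1), part (G): generic Herbrand-quotient bookkeeping for a morphism of
pairs `φ : P → Q`: the short exact sequence `0 → P|ker φ → P → Q|range φ → 0`, and its consequences
when `range φ` has finite index; equivariant maps give morphisms of `cyclicPair`s; restriction of
an action to a stable subgroup.  Mathlib + Herbrand54 + HerbrandCyclic54 only.
-/
import Mathlib
import Fermat.Agent.S55.Herbrand54
import Fermat.Agent.S55.HerbrandCyclic54

set_option autoImplicit false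

namespace Fermat.Agent.S55.SUnit1.HomSES

open Fermat.Agent.S55.Herbrand54 Fermat.Agent.S55.HerbrandCyclic54

section Generic

variable {A B : Type*} [AddCommGroup A] [AddCommGroup B] {P : Pair A} {Q : Pair B}
  (φ : Pair.Hom P Q)

theorem f_mem_ker (x : A) (hx : x ∈ φ.toFun.ker) : P.f x ∈ φ.toFun.ker := by
  rw [AddMonoidHom.mem_ker] at hx ⊢
  rw [φ.comm_f, hx, map_zero]

theorem g_mem_ker (x : A) (hx : x ∈ φ.toFun.ker) : P.g x ∈ φ.toFun.ker := by
  rw [AddMonoidHom.mem_ker] at hx ⊢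
  rw [φ.comm_g, hx, map_zero]

theorem f_mem_range (y : B) (hy : y ∈ φ.toFun.range) : Q.f y ∈ φ.toFun.range := by
  obtain ⟨x, rfl⟩ := hy
  exact ⟨P.f x, φ.comm_f x⟩

theorem g_mem_range (y : B) (hy : y ∈ φ.toFun.range) : Q.g y ∈ φ.toFun.range := by
  obtain ⟨x, rfl⟩ := hy
  exact ⟨P.g x, φ.comm_g x⟩

/-- the pair induced on the kernel of a morphism -/
def kerPair : Pair φ.toFun.ker := P.restrict φ.toFun.ker (f_mem_ker φ) (g_mem_ker φ)

/-- the pair induced on the range of a morphism -/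
def rangePair : Pair φ.toFun.range := Q.restrict φ.toFun.range (f_mem_range φ) (g_mem_range φ)

/-- the short exact sequence `0 → P|ker φ → P → Q|range φ → 0` -/
def sesKerRange : Pair.SES (kerPair φ) P (rangePair φ) where
  i := ⟨φ.toFun.ker.subtype, fun _ => rfl, fun _ => rfl⟩
  p := ⟨φ.toFun.rangeRestrict, fun x => Subtype.ext (φ.comm_f x), fun x => Subtype.ext (φ.comm_g x)⟩
  inj := Subtype.val_injective
  surj := φ.toFun.rangeRestrict_surjective
  exact b := by
    constructor
    · intro hb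
      have hb' : φ.toFun b = 0 := congrArg Subtype.val hb
      exact ⟨⟨b, hb'⟩, rfl⟩
    · rintro ⟨a, rfl⟩
      exact Subtype.ext a.2

variable [hfi : φ.toFun.range.FiniteIndex]

theorem isDefined_iff_of_hom (hK : (kerPair φ).IsDefined) : P.IsDefined ↔ Q.IsDefined := by
  have h1 : (rangePair φ).IsDefined ↔ Q.IsDefined :=
    Pair.isDefined_restrict_iff Q φ.toFun.range (f_mem_range φ) (g_mem_range φ)
  rw [← h1]
  exact ⟨fun h => (sesKerRange φ).isDefined_right hK h, fun h => (sesKerRange φ).isDefined_mid hK h⟩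

theorem q_eq_of_hom (hK : (kerPair φ).IsDefined) (hQ : Q.IsDefined) :
    P.q = (kerPair φ).q * Q.q := by
  have h1 : (rangePair φ).IsDefined :=
    (Pair.isDefined_restrict_iff Q φ.toFun.range (f_mem_range φ) (g_mem_range φ)).2 hQ
  rw [(sesKerRange φ).q_mul hK h1]
  congr 1
  exact Pair.q_restrict Q φ.toFun.range (f_mem_range φ) (g_mem_range φ) hQ

end Generic

section Cyclic

variable {G : Type*} [Group G] [Fintype G] {A B : Type*} [AddCommGroup A] [AddCommGroup B]

/-- an equivariant map gives a morphism of cyclic pairs -/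
def homOfEquivariant (ρA : G →* AddMonoid.End A) (ρB : G →* AddMonoid.End B) (g₀ : G)
    (φ : A →+ B) (hφ : ∀ (τ : G) (x : A), φ (ρA τ x) = ρB τ (φ x)) :
    Pair.Hom (cyclicPair ρA g₀) (cyclicPair ρB g₀) where
  toFun := φ
  comm_f x := by
    rw [cyclicPair_f_apply, cyclicPair_f_apply, map_sub, hφ]
  comm_g x := by
    rw [cyclicPair_g_apply, cyclicPair_g_apply, HerbrandCyclic54.normHom_apply, HerbrandCyclic54.normHom_apply, map_sum]
    exact Finset.sum_congr rfl fun τ _ => hφ τ x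

@[simp] theorem homOfEquivariant_toFun (ρA : G →* AddMonoid.End A) (ρB : G →* AddMonoid.End B)
    (g₀ : G) (φ : A →+ B) (hφ : ∀ (τ : G) (x : A), φ (ρA τ x) = ρB τ (φ x)) :
    (homOfEquivariant ρA ρB g₀ φ hφ).toFun = φ := rfl

/-- an equivariant isomorphism gives an isomorphism of cyclic pairs -/
def isoOfEquivariant (ρA : G →* AddMonoid.End A) (ρB : G →* AddMonoid.End B) (g₀ : G)
    (e : A ≃+ B) (he : ∀ (τ : G) (x : A), e (ρA τ x) = ρB τ (e x)) :
    Pair.Iso (cyclicPair ρA g₀) (cyclicPair ρB g₀) where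
  e := e
  comm_f := (homOfEquivariant ρA ρB g₀ e.toAddMonoidHom he).comm_f
  comm_g := (homOfEquivariant ρA ρB g₀ e.toAddMonoidHom he).comm_g

/-- restriction of an action to a stable subgroup -/
def rhoRestrict (ρ : G →* AddMonoid.End A) (K : AddSubgroup A)
    (hK : ∀ (τ : G) (x : A), x ∈ K → ρ τ x ∈ K) : G →* AddMonoid.End K where
  toFun τ := ((show A →+ A from ρ τ).comp K.subtype).codRestrict K (fun x => hK τ x x.2)
  map_one' := by
    apply AddMonoidHom.ext
    intro x
    apply Subtype.ext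
    change ρ 1 (x : A) = x
    rw [rho_one_apply]
  map_mul' σ τ := by
    apply AddMonoidHom.ext
    intro x
    apply Subtype.ext
    change ρ (σ * τ) (x : A) = ρ σ (ρ τ (x : A))
    rw [rho_mul_apply]

omit [Fintype G] in
theorem coe_rhoRestrict_apply (ρ : G →* AddMonoid.End A) (K : AddSubgroup A)
    (hK : ∀ (τ : G) (x : A), x ∈ K → ρ τ x ∈ K) (τ : G) (x : K) :
    ((rhoRestrict ρ K hK τ x : K) : A) = ρ τ (x : A) := rfl

theorem f_mem_of_stable (ρ : G →* AddMonoid.End A) (g₀ : G) (K : AddSubgroup A)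
    (hK : ∀ (τ : G) (x : A), x ∈ K → ρ τ x ∈ K) (x : A) (hx : x ∈ K) :
    (cyclicPair ρ g₀).f x ∈ K := by
  rw [cyclicPair_f_apply]
  exact sub_mem (hK g₀ x hx) hx

theorem g_mem_of_stable (ρ : G →* AddMonoid.End A) (g₀ : G) (K : AddSubgroup A)
    (hK : ∀ (τ : G) (x : A), x ∈ K → ρ τ x ∈ K) (x : A) (hx : x ∈ K) :
    (cyclicPair ρ g₀).g x ∈ K := by
  rw [cyclicPair_g_apply, HerbrandCyclic54.normHom_apply]
  exact sum_mem fun τ _ => hK τ x hx

/-- the cyclic pair of a restricted action is the restricted cyclic pair -/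
def isoRestrict (ρ : G →* AddMonoid.End A) (g₀ : G) (K : AddSubgroup A)
    (hK : ∀ (τ : G) (x : A), x ∈ K → ρ τ x ∈ K)
    (hf : ∀ x ∈ K, (cyclicPair ρ g₀).f x ∈ K) (hg : ∀ x ∈ K, (cyclicPair ρ g₀).g x ∈ K) :
    Pair.Iso (cyclicPair (rhoRestrict ρ K hK) g₀) ((cyclicPair ρ g₀).restrict K hf hg) where
  e := AddEquiv.refl K
  comm_f x := by
    apply Subtype.ext
    rfl
  comm_g x := by
    apply Subtype.ext
    change ((normHom (rhoRestrict ρ K hK) x : K) : A) = normHom ρ (x : A)
    rw [HerbrandCyclic54.normHom_apply, HerbrandCyclic54.normHom_apply, AddSubgroup.val_finsetSum]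
    rfl

end Cyclic

end Fermat.Agent.S55.SUnit1.HomSES
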