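/-
S55 leaf 31b-REL-LAYER-UNITS (helper1), generic part: for an additive action `ρ` of a group `H`
on `A` and a normal subgroup `N`, the `(H ⧸ N)`-module `A^N` of `N`-invariants (`layerRho`), and
the identification of its cyclic Herbrand pair with that of any `(H ⧸ N)`-module mapping
isomorphically onto the invariants.  Mathlib + Herbrand54 + HerbrandCyclic54 + SUnit1.HomSES.
-/
import Mathlib
import Fermat.Agent.S55.Herbrand54
import Fermat.Agent.S55.HerbrandCyclic54
import Fermat.Agent.S55.SUnit1.HomSES

set_option autoImplicit false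

namespace Fermat.Agent.S55.SUnit1.LayerRho

open Fermat.Agent.S55.Herbrand54 Fermat.Agent.S55.HerbrandCyclic54
  Fermat.Agent.S55.SUnit1.HomSES

variable {H : Type*} [Group H] {A : Type*} [AddCommGroup A] (ρ : H →* AddMonoid.End A)
  (N : Subgroup H)

/-- the subgroup of `N`-invariants -/
def invSub : AddSubgroup A where
  carrier := {x | ∀ n ∈ N, ρ n x = x}
  zero_mem' := fun n _ => map_zero (show A →+ A from ρ n)
  add_mem' := fun {a b} ha hb n hn => by
    have h : ρ n (a + b) = ρ n a + ρ n b := map_add (show A →+ A from ρ n) a b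
    rw [h, ha n hn, hb n hn]
  neg_mem' := fun {a} ha n hn => by
    have h : ρ n (-a) = -ρ n a := map_neg (show A →+ A from ρ n) a
    rw [h, ha n hn]

theorem mem_invSub (x : A) : x ∈ invSub ρ N ↔ ∀ n ∈ N, ρ n x = x := Iff.rfl

variable [N.Normal]

/-- the invariants of a normal subgroup are stable under the whole group -/
theorem rho_mem_invSub (h : H) (x : A) (hx : x ∈ invSub ρ N) : ρ h x ∈ invSub ρ N := by
  intro n hn
  have hconj : h⁻¹ * n * h ∈ N := by
    have := Subgroup.Normal.conj_mem (inferInstance : N.Normal) n hn h⁻¹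
    simpa using this
  have h1 : n * h = h * (h⁻¹ * n * h) := by group
  rw [← rho_mul_apply, h1, rho_mul_apply, hx _ hconj]

/-- the action of `H` on the `N`-invariants -/
def layerRhoAux : H →* AddMonoid.End (invSub ρ N) :=
  rhoRestrict ρ (invSub ρ N) (rho_mem_invSub ρ N)

theorem coe_layerRhoAux (h : H) (x : invSub ρ N) :
    ((layerRhoAux ρ N h x : invSub ρ N) : A) = ρ h (x : A) := rfl

theorem layerRhoAux_of_mem (n : H) (hn : n ∈ N) : layerRhoAux ρ N n = 1 := by
  refine DFunLike.ext _ _ (fun x => Subtype.ext ?_)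
  change ρ n (x : A) = (x : A)
  exact x.2 n hn

/-- the `(H ⧸ N)`-module of `N`-invariants -/
def layerRho : H ⧸ N →* AddMonoid.End (invSub ρ N) :=
  QuotientGroup.lift N (layerRhoAux ρ N) (fun n hn => layerRhoAux_of_mem ρ N n hn)

theorem layerRho_mk (h : H) : layerRho ρ N (h : H ⧸ N) = layerRhoAux ρ N h :=
  QuotientGroup.lift_mk N _ h

theorem coe_layerRho_mk (h : H) (x : invSub ρ N) :
    ((layerRho ρ N (h : H ⧸ N) x : invSub ρ N) : A) = ρ h (x : A) := by
  rw [layerRho_mk]
  rfl

section Iso

variable [Fintype (H ⧸ N)] {A' : Type*} [AddCommGroup A'] (ρ' : H ⧸ N →* AddMonoid.End A')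
  (j : A' →+ A) (hj : Function.Injective j)
  (heq : ∀ (h : H) (x : A'), j (ρ' (h : H ⧸ N) x) = ρ h (j x))
  (hr : j.range = invSub ρ N)

/-- an `(H ⧸ N)`-module mapping isomorphically and equivariantly onto the `N`-invariants has the
same cyclic Herbrand pair as the layer module -/
noncomputable def layerIsoOfRange (g : H ⧸ N) :
    Pair.Iso (cyclicPair ρ' g) (cyclicPair (layerRho ρ N) g) :=
  isoOfEquivariant ρ' (layerRho ρ N) g
    (AddEquiv.ofBijective (j.codRestrict (invSub ρ N) (fun x => by
        rw [← hr]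
        exact ⟨x, rfl⟩))
      ⟨fun x y h => hj (congrArg Subtype.val h), fun y => by
        have hy : (y : A) ∈ j.range := by
          rw [hr]
          exact y.2
        obtain ⟨x, hx⟩ := hy
        exact ⟨x, Subtype.ext hx⟩⟩)
    (fun τ x => by
      obtain ⟨h, rfl⟩ := QuotientGroup.mk_surjective τ
      apply Subtype.ext
      rw [coe_layerRho_mk]
      exact heq h x)

end Iso

end Fermat.Agent.S55.SUnit1.LayerRho
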