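/-
S55 leaf 16-SUNIT (helper1), part (B)+(H): the Herbrand quotient of the `T`-units `𝓞_{L,T}^×`
(Mathlib `Set.unit`, via helper19's `SUnitRank`) for a finite cyclic group `G = ⟨g₀⟩` acting on a
number field `L` and a `G`-stable finite set `T` of primes of `L`:
`q(𝓞_{L,T}^×) · |G| = q(ℤ[places at ∞]) · q(ℤ[T]) = ∏_{orbits} |Stab|`.
-/
import Mathlib
import Fermat.Agent.S55.Herbrand54
import Fermat.Agent.S55.HerbrandCyclic54
import Fermat.Agent.S55.SUnit19.SUnitRank
import Fermat.Agent.S55.SUnit1.QUnits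

set_option autoImplicit false

namespace Fermat.Agent.S55.SUnit1.QSUnits

open NumberField IsDedekindDomain Fermat.Agent.S55.Herbrand54 Fermat.Agent.S55.HerbrandCyclic54
  Fermat.Agent.S55.SUnit1.Places Fermat.Agent.S55.SUnit1.Units Fermat.Agent.S55.SUnit1.HomSES
  Fermat.Agent.S55.SUnit1.PermOrbits Fermat.Agent.S55.SUnit1.QUnits
  Fermat.Agent.S55.SUnit19.SUnitRank

section Generic

variable {A B : Type*} [AddCommGroup A] [AddCommGroup B] {PA : Pair A} {PB : Pair B}

/-- an injective morphism of pairs identifies the source with the restriction to its range -/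
noncomputable def isoOfInjective (j : Pair.Hom PA PB) (hinj : Function.Injective j.toFun)
    (K : AddSubgroup B) (hK : j.toFun.range = K) (hf : ∀ x ∈ K, PB.f x ∈ K)
    (hg : ∀ x ∈ K, PB.g x ∈ K) : Pair.Iso PA (PB.restrict K hf hg) where
  e := AddEquiv.ofBijective (j.toFun.codRestrict K (fun x => hK ▸ ⟨x, rfl⟩))
    ⟨fun x y h => hinj (congrArg Subtype.val h), fun y => by
      have hy : (y : B) ∈ j.toFun.range := hK ▸ y.2
      obtain ⟨x, hx⟩ := hy
      exact ⟨x, Subtype.ext hx⟩⟩
  comm_f x := Subtype.ext (j.comm_f x)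
  comm_g x := Subtype.ext (j.comm_g x)

end Generic

section Reps

open MulAction

variable {G : Type*} [Group G] [Fintype G] {X : Type*} [MulAction G X] [Finite X] {g₀ : G}
  (hg : ∀ τ : G, τ ∈ Subgroup.zpowers g₀)

include hg in
/-- `q(ℤ[X]) = ∏_i |Stab (r i)|` for any system `r` of orbit representatives -/
theorem q_perm_of_reps {ι : Type*} [Fintype ι] (r : ι → X)
    (hr : ∀ x : X, ∃! i, ∃ σ : G, σ • r i = x) :
    (cyclicPair (permRho G X ℤ) g₀).q = ∏ i, (Nat.card (stabilizer G (r i)) : ℚ) := by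
  classical
  let f : ι → orbitRel.Quotient G X := fun i => Quotient.mk'' (r i)
  have hf : Function.Bijective f := by
    constructor
    · intro i j hij
      have h1 : r i ∈ MulAction.orbit G (r j) := by
        have := Quotient.exact' hij
        exact this
      obtain ⟨σ, hσ⟩ := h1
      obtain ⟨k, -, hk⟩ := hr (r i)
      rw [hk i ⟨1, one_smul G _⟩, hk j ⟨σ, hσ⟩]
    · intro ω
      obtain ⟨x, rfl⟩ := Quotient.exists_rep ω
      obtain ⟨i, ⟨σ, hσ⟩, -⟩ := hr x
      refine ⟨i, ?_⟩
      apply Quotient.sound'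
      change r i ∈ MulAction.orbit G x
      rw [← hσ]
      exact ⟨σ⁻¹, by simp⟩
  let e : ι ≃ orbitRel.Quotient G X := Equiv.ofBijective f hf
  have : Fintype (orbitRel.Quotient G X) := Fintype.ofEquiv ι e
  rw [q_perm hg (fun ω => r (e.symm ω)) (fun ω => e.apply_symm_apply ω)]
  exact Fintype.prod_equiv e.symm _ _ (fun ω => rfl)

end Reps

variable {L : Type*} [Field L] [NumberField L] (G : Type*) [Group G] [MulSemiringAction G L]
  (T : Finset (HeightOneSpectrum (𝓞 L)))
  (hT : ∀ (σ : G) (P : HeightOneSpectrum (𝓞 L)), P ∈ T → primeSmul σ P ∈ T)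

/-- the action of `G` on `Lˣ` -/
noncomputable def fieldUnitSmul (σ : G) : Lˣ ≃* Lˣ :=
  Units.mapEquiv (MulSemiringAction.toRingEquiv G L σ).toMulEquiv

omit [NumberField L] in
theorem coe_fieldUnitSmul (σ : G) (x : Lˣ) : ((fieldUnitSmul G σ x : Lˣ) : L) = σ • (x : L) := rfl

variable {G T}

include hT in
theorem primeSmul_notMem (σ : G) {P : HeightOneSpectrum (𝓞 L)} (hP : P ∉ T) :
    primeSmul σ P ∉ T := by
  intro h
  apply hP
  have := hT σ⁻¹ _ h
  rwa [primeSmul_inv_smul] at this

include hT in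
theorem fieldUnitSmul_mem (σ : G) (x : Lˣ) (hx : x ∈ sUnits L T) :
    fieldUnitSmul G σ x ∈ sUnits L T := by
  intro P hP
  have h1 := hx _ (primeSmul_notMem hT σ⁻¹ hP)
  rw [valuation_primeSmul', inv_inv] at h1
  exact h1

variable (G T)

/-- the action of `G` on the `T`-units -/
noncomputable def sUnitSmul (σ : G) : ↥(sUnits L T) →* ↥(sUnits L T) :=
  ((fieldUnitSmul G σ).toMonoidHom.comp (sUnits L T).subtype).codRestrict (sUnits L T)
    (fun x => fieldUnitSmul_mem hT σ x.1 x.2)

theorem coe_sUnitSmul (σ : G) (x : ↥(sUnits L T)) :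
    (((sUnitSmul G T hT σ x : ↥(sUnits L T)) : Lˣ) : L) = σ • ((x : Lˣ) : L) := rfl

/-- the action of `G` on the `T`-units, additively -/
noncomputable def sUnitRho : G →* AddMonoid.End (Additive ↥(sUnits L T)) where
  toFun σ := MonoidHom.toAdditive (sUnitSmul G T hT σ)
  map_one' := by
    apply AddMonoidHom.ext
    intro x
    apply congrArg Additive.ofMul
    apply Subtype.ext
    apply Units.ext
    rw [coe_sUnitSmul, one_smul]
    rfl
  map_mul' σ τ := by
    apply AddMonoidHom.ext
    intro x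
    apply congrArg Additive.ofMul
    apply Subtype.ext
    apply Units.ext
    rw [coe_sUnitSmul, mul_smul]
    rfl

theorem sUnitRho_apply (σ : G) (x : Additive ↥(sUnits L T)) :
    sUnitRho G T hT σ x = Additive.ofMul (sUnitSmul G T hT σ (Additive.toMul x)) := rfl

/-- the action of `G` on `T` -/
@[reducible] noncomputable def primeMulAction : MulAction G T where
  smul σ v := ⟨primeSmul σ v.1, hT σ v.1 v.2⟩
  one_smul v := Subtype.ext (primeSmul_one v.1)
  mul_smul σ τ v := Subtype.ext (primeSmul_mul σ τ v.1)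

/-- the action of `G` on `ℤ[T]` -/
noncomputable def primeRho : G →* AddMonoid.End (T → ℤ) :=
  @permRho G _ T (primeMulAction G T hT) ℤ _

theorem primeRho_apply (σ : G) (φ : T → ℤ) (v : T) :
    primeRho G T hT σ φ v = φ ⟨primeSmul σ⁻¹ v.1, hT σ⁻¹ v.1 v.2⟩ := rfl

/-- equivariance of the valuation vector -/
theorem valAdd_sUnitRho (σ : G) (x : Additive ↥(sUnits L T)) :
    valAdd L T (sUnitRho G T hT σ x) = primeRho G T hT σ (valAdd L T x) := by
  funext v
  rw [primeRho_apply, valAdd_apply, valAdd_apply]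
  congr 1
  apply WithZero.coe_injective
  rw [HeightOneSpectrum.valuationOfNeZero_eq, HeightOneSpectrum.valuationOfNeZero_eq,
    valuation_primeSmul', inv_inv]
  rfl

/-- equivariance of the inclusion of the units -/
theorem unitsToSUnits_unitRho (σ : G) (u : Additive (𝓞 L)ˣ) :
    MonoidHom.toAdditive (unitsToSUnits L T) (unitRho G σ u) =
      sUnitRho G T hT σ (MonoidHom.toAdditive (unitsToSUnits L T) u) := by
  apply congrArg Additive.ofMul
  apply Subtype.ext
  apply Units.ext
  change algebraMap (𝓞 L) L ((unitSmul σ (Additive.toMul u) : (𝓞 L)ˣ) : 𝓞 L) =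
    σ • algebraMap (𝓞 L) L ((Additive.toMul u : (𝓞 L)ˣ) : 𝓞 L)
  rw [coe_unitSmul]
  exact coe_smul σ _

variable [Fintype G]

/-- the valuation vector as a morphism of cyclic pairs -/
noncomputable def valPairHom (g₀ : G) :
    Pair.Hom (cyclicPair (sUnitRho G T hT) g₀) (cyclicPair (primeRho G T hT) g₀) :=
  homOfEquivariant _ _ g₀ (valAdd L T) (valAdd_sUnitRho G T hT)

/-- the inclusion of the units as a morphism of cyclic pairs -/
noncomputable def unitsPairHom (g₀ : G) :
    Pair.Hom (cyclicPair (unitRho (L := L) G) g₀) (cyclicPair (sUnitRho G T hT) g₀) :=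
  homOfEquivariant _ _ g₀ (MonoidHom.toAdditive (unitsToSUnits L T))
    (unitsToSUnits_unitRho G T hT)

/-- the kernel pair of the valuation vector is the pair of the units -/
noncomputable def unitsIsoKer (g₀ : G) :
    Pair.Iso (cyclicPair (unitRho (L := L) G) g₀) (kerPair (valPairHom G T hT g₀)) :=
  isoOfInjective (unitsPairHom G T hT g₀)
    (fun _ _ h => unitsToSUnits_injective (F := L) (T := T) h)
    _ (range_unitsToSUnits_toAdditive (F := L) (T := T)) _ _

instance range_valPairHom_finiteIndex (g₀ : G) : (valPairHom G T hT g₀).toFun.range.FiniteIndex :=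
  range_valAdd_finiteIndex L T

variable {G T}
variable {g₀ : G} (hg : ∀ τ : G, τ ∈ Subgroup.zpowers g₀)

include hg

theorem primePair_isDefined : (cyclicPair (primeRho G T hT) g₀).IsDefined :=
  @isDefined_perm G _ T (primeMulAction G T hT) _ _ g₀ hg

/-- the Herbrand quotient of the `T`-units is defined -/
theorem sUnits_isDefined : (cyclicPair (sUnitRho G T hT) g₀).IsDefined :=
  (isDefined_iff_of_hom (valPairHom G T hT g₀)
    ((unitsIsoKer G T hT g₀).isDefined_iff.1 (units_isDefined hg))).2 (primePair_isDefined hT hg)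

/-- `q(𝓞_{L,T}^×) = q(𝓞_L^×) · q(ℤ[T])` -/
theorem q_sUnits_eq :
    (cyclicPair (sUnitRho G T hT) g₀).q =
      (cyclicPair (unitRho (L := L) G) g₀).q * (cyclicPair (primeRho G T hT) g₀).q := by
  rw [q_eq_of_hom (valPairHom G T hT g₀)
    ((unitsIsoKer G T hT g₀).isDefined_iff.1 (units_isDefined hg)) (primePair_isDefined hT hg),
    ← (unitsIsoKer G T hT g₀).q_eq]

/-- `q(𝓞_{L,T}^×) · |G| = q(ℤ[places at ∞]) · q(ℤ[T])` -/
theorem q_sUnits_mul_card :
    (cyclicPair (sUnitRho G T hT) g₀).q * Nat.card G =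
      (cyclicPair (infRho (L := L) G) g₀).q * (cyclicPair (primeRho G T hT) g₀).q := by
  rw [q_sUnits_eq hT hg, q_inf_eq hg]
  ring

omit hg in
/-- the stabiliser of an infinite place -/
noncomputable def infStab (G : Type*) [Group G] [MulSemiringAction G L] (w : InfinitePlace L) :
    Subgroup G :=
  @MulAction.stabilizer G (InfinitePlace L) _ (infMulAction G) w

omit [Fintype G] hg in
theorem mem_infStab (σ : G) (w : InfinitePlace L) : σ ∈ infStab G w ↔ infSmul σ w = w := Iff.rfl

omit hg in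
/-- the action of `G` on all primes of `L` -/
@[reducible] noncomputable def primeMulActionAll (G : Type*) [Group G] [MulSemiringAction G L] :
    MulAction G (HeightOneSpectrum (𝓞 L)) where
  smul := primeSmul
  one_smul := primeSmul_one
  mul_smul := primeSmul_mul

omit hg in
/-- the decomposition group of a prime of `L` -/
noncomputable def primeStab (G : Type*) [Group G] [MulSemiringAction G L]
    (P : HeightOneSpectrum (𝓞 L)) : Subgroup G :=
  @MulAction.stabilizer G (HeightOneSpectrum (𝓞 L)) _ (primeMulActionAll G) P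

omit [Fintype G] hg in
theorem mem_primeStab (σ : G) (P : HeightOneSpectrum (𝓞 L)) :
    σ ∈ primeStab G P ↔ primeSmul σ P = P := Iff.rfl

omit [Fintype G] hg in
theorem stabilizer_primeMulAction (v : T) :
    @MulAction.stabilizer G T _ (primeMulAction G T hT) v = primeStab G v.1 := by
  ext σ
  rw [mem_primeStab]
  let _ := primeMulAction G T hT
  rw [MulAction.mem_stabilizer_iff, Subtype.ext_iff]
  rfl

/-- `q(ℤ[places at ∞]) = ∏ |Stab|` -/
theorem q_inf_formula {ι : Type*} [Fintype ι] (r : ι → InfinitePlace L)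
    (hr : ∀ w : InfinitePlace L, ∃! i, ∃ σ : G, infSmul σ (r i) = w) :
    (cyclicPair (infRho (L := L) G) g₀).q = ∏ i, (Nat.card (infStab G (r i)) : ℚ) :=
  @q_perm_of_reps G _ _ (InfinitePlace L) (infMulAction G) _ g₀ hg ι _ r hr

/-- `q(ℤ[T]) = ∏ |decomposition groups|` -/
theorem q_prime_formula {κ : Type*} [Fintype κ] (s : κ → HeightOneSpectrum (𝓞 L))
    (hsT : ∀ k, s k ∈ T)
    (hs : ∀ P ∈ T, ∃! k, ∃ σ : G, primeSmul σ (s k) = P) :
    (cyclicPair (primeRho G T hT) g₀).q = ∏ k, (Nat.card (primeStab G (s k)) : ℚ) := by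
  have h := @q_perm_of_reps G _ _ T (primeMulAction G T hT) _ g₀ hg κ _
    (fun k => ⟨s k, hsT k⟩) (by
      intro v
      obtain ⟨k, ⟨σ, hσ⟩, hk⟩ := hs v.1 v.2
      refine ⟨k, ⟨σ, Subtype.ext hσ⟩, ?_⟩
      rintro j ⟨τ, hτ⟩
      exact hk j ⟨τ, congrArg Subtype.val hτ⟩)
  rw [primeRho, h]
  refine Finset.prod_congr rfl fun k _ => ?_
  rw [stabilizer_primeMulAction]

/-- **Herbrand quotient of the `T`-units**:
`q(𝓞_{L,T}^×) · |G| = ∏_{orbits on places at ∞} |Stab| · ∏_{orbits on T} |decomposition group|` -/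
theorem q_sUnits_formula {ι κ : Type*} [Fintype ι] [Fintype κ] (r : ι → InfinitePlace L)
    (hr : ∀ w : InfinitePlace L, ∃! i, ∃ σ : G, infSmul σ (r i) = w)
    (s : κ → HeightOneSpectrum (𝓞 L)) (hsT : ∀ k, s k ∈ T)
    (hs : ∀ P ∈ T, ∃! k, ∃ σ : G, primeSmul σ (s k) = P) :
    (cyclicPair (sUnitRho G T hT) g₀).q * Nat.card G =
      (∏ i, (Nat.card (infStab G (r i)) : ℚ)) * ∏ k, (Nat.card (primeStab G (s k)) : ℚ) := by
  rw [q_sUnits_mul_card hT hg, q_inf_formula hg r hr, q_prime_formula hT hg s hsT hs]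

end Fermat.Agent.S55.SUnit1.QSUnits
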