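/-
S55 leaf 16-SUNIT (helper1), part (Odd): for a finite group `G` of odd order acting faithfully on
a number field `L`, the stabilisers of the infinite places are trivial, so the archimedean factor
of the Herbrand quotient of the `T`-units disappears:
`q(𝓞_{L,T}^×) · |G| = ∏_{orbits on T} |decomposition group|`.
-/
import Mathlib
import Fermat.Agent.S55.SUnit1.QSUnits

set_option autoImplicit false

namespace Fermat.Agent.S55.SUnit1.OddOrder

open NumberField IsDedekindDomain Fermat.Agent.S55.Herbrand54 Fermat.Agent.S55.HerbrandCyclic54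
  Fermat.Agent.S55.SUnit1.Places Fermat.Agent.S55.SUnit1.QUnits Fermat.Agent.S55.SUnit1.QSUnits
  Fermat.Agent.S55.SUnit19.SUnitRank

variable {L : Type*} [Field L] [NumberField L] {G : Type*} [Group G] [MulSemiringAction G L]

omit [NumberField L] in
/-- an element fixing an infinite place acts on `L` as an involution -/
theorem sq_smul_eq_of_infSmul_eq (σ : G) (w : InfinitePlace L) (h : infSmul σ w = w) (x : L) :
    (σ * σ) • x = x := by
  have hw : InfinitePlace.mk w.embedding = w := InfinitePlace.mk_embedding w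
  set φ := w.embedding with hφ
  have h1 : InfinitePlace.mk (φ.comp (MulSemiringAction.toRingHom G L σ⁻¹)) = InfinitePlace.mk φ := by
    rw [← InfinitePlace.comap_mk, hw]
    exact h
  have key : ∀ y : L, φ ((σ⁻¹ * σ⁻¹) • y) = φ y := by
    rcases InfinitePlace.mk_eq_iff.1 h1 with h2 | h2
    · intro y
      have e1 : ∀ z : L, φ (σ⁻¹ • z) = φ z := fun z => RingHom.congr_fun h2 z
      rw [mul_smul, e1, e1]
    · intro y
      have e1 : ∀ z : L, (starRingEnd ℂ) (φ (σ⁻¹ • z)) = φ z := fun z => RingHom.congr_fun h2 z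
      rw [mul_smul, ← e1 y, ← e1 (σ⁻¹ • y), Complex.conj_conj]
  have h3 : (σ⁻¹ * σ⁻¹) • ((σ * σ) • x) = (σ * σ) • x := φ.injective (key _)
  rw [← mul_smul] at h3
  have h4 : σ⁻¹ * σ⁻¹ * (σ * σ) = 1 := by group
  rw [h4, one_smul] at h3
  exact h3.symm

variable [FaithfulSMul G L]

/-- for a group of odd order acting faithfully, the stabilisers of infinite places are trivial -/
theorem infStab_eq_bot (hodd : Odd (Nat.card G)) (w : InfinitePlace L) : infStab G w = ⊥ := by
  rw [eq_bot_iff]
  intro σ hσ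
  rw [Subgroup.mem_bot]
  have h2 : σ * σ = 1 := by
    apply FaithfulSMul.eq_of_smul_eq_smul (α := L)
    intro x
    rw [sq_smul_eq_of_infSmul_eq σ w ((mem_infStab σ w).1 hσ) x, one_smul]
  obtain ⟨m, hm⟩ := hodd
  have h3 : σ ^ Nat.card G = 1 := pow_card_eq_one'
  rw [hm, pow_succ, pow_mul, pow_two, h2, one_pow, one_mul] at h3
  exact h3

theorem card_infStab (hodd : Odd (Nat.card G)) (w : InfinitePlace L) :
    Nat.card (infStab G w) = 1 := by
  rw [infStab_eq_bot hodd w]
  exact Subgroup.card_bot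

variable [Fintype G] {T : Finset (HeightOneSpectrum (𝓞 L))}
  (hT : ∀ (σ : G) (P : HeightOneSpectrum (𝓞 L)), P ∈ T → primeSmul σ P ∈ T)
  {g₀ : G} (hg : ∀ τ : G, τ ∈ Subgroup.zpowers g₀)

include hg in
/-- `q(ℤ[places at ∞]) = 1` for odd order -/
theorem q_inf_eq_one (hodd : Odd (Nat.card G)) : (cyclicPair (infRho (L := L) G) g₀).q = 1 := by
  classical
  let _ := infMulAction (L := L) G
  let Ω := MulAction.orbitRel.Quotient G (InfinitePlace L)
  have : Fintype Ω := Fintype.ofFinite _
  have h := PermOrbits.q_perm (X := InfinitePlace L) hg (fun ω : Ω => Quotient.out ω)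
    (fun ω => Quotient.out_eq' ω)
  have h' : (cyclicPair (infRho (L := L) G) g₀).q =
      ∏ ω : Ω, (Nat.card (infStab G (Quotient.out ω)) : ℚ) := h
  rw [h']
  apply Finset.prod_eq_one
  intro ω _
  rw [card_infStab hodd]
  norm_num

include hg in
/-- **Herbrand quotient of the `T`-units, odd order**:
`q(𝓞_{L,T}^×) · |G| = ∏_{orbits on T} |decomposition group|` -/
theorem q_sUnits_formula_odd (hodd : Odd (Nat.card G)) {κ : Type*} [Fintype κ]
    (s : κ → HeightOneSpectrum (𝓞 L)) (hsT : ∀ k, s k ∈ T)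
    (hs : ∀ P ∈ T, ∃! k, ∃ σ : G, primeSmul σ (s k) = P) :
    (cyclicPair (sUnitRho G T hT) g₀).q * Nat.card G =
      ∏ k, (Nat.card (primeStab G (s k)) : ℚ) := by
  rw [q_sUnits_mul_card hT hg, q_inf_eq_one hg hodd, one_mul, q_prime_formula hT hg s hsT hs]

include hg in
/-- for odd order the units have Herbrand quotient `1 / |G|` -/
theorem q_units_odd (hodd : Odd (Nat.card G)) :
    (cyclicPair (unitRho (L := L) G) g₀).q * Nat.card G = 1 := by
  rw [mul_comm, ← q_inf_eq hg, q_inf_eq_one hg hodd]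

end Fermat.Agent.S55.SUnit1.OddOrder
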