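/-
S55 leaf 31b-REL-LAYER-UNITS (helper1), number field part: for a finite group `H` acting
faithfully on a number field `L` and a normal subgroup `N`, the layer field `L^N` (a number field,
in general not Galois over `ℚ`) with its faithful action of `H ⧸ N`, and the Herbrand quotient of
the `(H ⧸ N)`-module `(𝓞_L^×)^N`:  `q · |H ⧸ N| = 1` when `H ⧸ N` is cyclic of odd order.
-/
import Mathlib
import Fermat.Agent.S55.SUnit1.OddOrder
import Fermat.Agent.S55.SUnit1.LayerRho

set_option autoImplicit false
set_option linter.unusedSectionVars false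

namespace Fermat.Agent.S55.SUnit1.Layer

open NumberField Fermat.Agent.S55.Herbrand54 Fermat.Agent.S55.HerbrandCyclic54
  Fermat.Agent.S55.SUnit1.Places Fermat.Agent.S55.SUnit1.QUnits Fermat.Agent.S55.SUnit1.OddOrder
  Fermat.Agent.S55.SUnit1.LayerRho

variable {L : Type*} [Field L] [NumberField L] {H : Type*} [Group H] [MulSemiringAction H L]
  (N : Subgroup H)

/-- the layer field `L^N` -/
abbrev layerField : Subfield L := FixedPoints.subfield N L

omit [NumberField L] in
theorem mem_layerField (x : L) : x ∈ layerField (L := L) N ↔ ∀ n ∈ N, n • x = x := by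
  constructor
  · intro hx n hn
    exact hx ⟨n, hn⟩
  · intro hx n
    exact hx n.1 n.2

instance numberField_layerField : NumberField (layerField (L := L) N) where
  to_charZero := inferInstance
  to_finiteDimensional := FiniteDimensional.left ℚ (layerField (L := L) N) L

variable [hN : N.Normal]

omit [NumberField L] in
theorem smul_mem_layerField (h : H) (x : L) (hx : x ∈ layerField (L := L) N) :
    h • x ∈ layerField (L := L) N := by
  rw [mem_layerField] at hx ⊢
  intro n hn
  have hconj : h⁻¹ * n * h ∈ N := by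
    have := Subgroup.Normal.conj_mem hN n hn h⁻¹
    simpa using this
  have h1 : n * h = h * (h⁻¹ * n * h) := by group
  rw [← mul_smul, h1, mul_smul, hx _ hconj]

/-- the action of `H ⧸ N` on the layer field -/
@[reducible] noncomputable def layerAction : MulSemiringAction (H ⧸ N) (layerField (L := L) N) where
  smul q x := Quotient.liftOn' q (fun h => (⟨h • (x : L), smul_mem_layerField N h (x : L) x.2⟩ :
      layerField (L := L) N)) (fun a b hab => by
    apply Subtype.ext
    change a • (x : L) = b • (x : L)
    have hmem : a⁻¹ * b ∈ N := QuotientGroup.leftRel_apply.1 hab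
    have hx := (mem_layerField N _).1 x.2 _ hmem
    have h1 : b = a * (a⁻¹ * b) := by group
    rw [h1, mul_smul, hx])
  one_smul x := Subtype.ext (one_smul H (x : L))
  mul_smul q₁ q₂ x := Quotient.inductionOn₂' q₁ q₂ fun g h => Subtype.ext (mul_smul g h (x : L))
  smul_add q x y := Quotient.inductionOn' q fun g => Subtype.ext (smul_add g (x : L) (y : L))
  smul_zero q := Quotient.inductionOn' q fun g => Subtype.ext (smul_zero g)
  smul_one q := Quotient.inductionOn' q fun g => Subtype.ext (smul_one g)
  smul_mul q x y := Quotient.inductionOn' q fun g => Subtype.ext (smul_mul' g (x : L) (y : L))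

attribute [local instance] layerAction

theorem coe_mk_smul (h : H) (x : layerField (L := L) N) :
    ((((h : H ⧸ N) • x : layerField (L := L) N)) : L) = h • (x : L) := rfl

omit [NumberField L] hN in
/-- Artin: an element of `H` fixing the layer field pointwise lies in `N` -/
theorem mem_of_fixes [Finite H] [FaithfulSMul H L] (h : H)
    (hfix : ∀ x ∈ layerField (L := L) N, h • x = x) : h ∈ N := by
  let σ : L ≃ₐ[layerField (L := L) N] L :=
    AlgEquiv.ofRingEquiv (f := MulSemiringAction.toRingEquiv H L h) (fun r => hfix r.1 r.2)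
  obtain ⟨n, hn⟩ := FixedPoints.toAlgAut_surjective N L σ
  have h2 : (n : H) = h := by
    apply FaithfulSMul.eq_of_smul_eq_smul (α := L)
    intro x
    have := DFunLike.congr_fun hn x
    exact this
  rw [← h2]
  exact n.2

/-- the action of `H ⧸ N` on the layer field is faithful -/
theorem faithful_layerAction [Finite H] [FaithfulSMul H L] :
    FaithfulSMul (H ⧸ N) (layerField (L := L) N) := by
  refine ⟨fun {q₁ q₂} => ?_⟩
  refine Quotient.inductionOn₂' q₁ q₂ fun a b hab => ?_
  apply QuotientGroup.eq.2
  apply mem_of_fixes (L := L) N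
  intro x hx
  have h1 := congrArg Subtype.val (hab ⟨x, hx⟩)
  have h2 : a • x = b • x := h1
  rw [mul_smul, ← h2, ← mul_smul, inv_mul_cancel, one_smul]

/-! ### units of the layer field -/

/-- the inclusion `𝓞 (L^N) → 𝓞 L` -/
noncomputable def intIncl : 𝓞 (layerField (L := L) N) →+* 𝓞 L :=
  RingOfIntegers.mapRingHom (layerField (L := L) N).subtype

omit hN in
theorem coe_intIncl (x : 𝓞 (layerField (L := L) N)) :
    ((intIncl N x : 𝓞 L) : L) = ((x : layerField (L := L) N) : L) := rfl

omit hN in
theorem intIncl_injective : Function.Injective (intIncl (L := L) N) := by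
  intro x y hxy
  apply RingOfIntegers.ext
  apply Subtype.ext
  have := congrArg (fun z : 𝓞 L => (z : L)) hxy
  exact this

/-- the inclusion of the units of the layer field, additively -/
noncomputable def unitsIncl : Additive (𝓞 (layerField (L := L) N))ˣ →+ Additive (𝓞 L)ˣ :=
  MonoidHom.toAdditive (Units.map (intIncl (L := L) N).toMonoidHom)

omit hN in
theorem coe_unitsIncl (u : Additive (𝓞 (layerField (L := L) N))ˣ) :
    (((Additive.toMul (unitsIncl N u) : (𝓞 L)ˣ) : 𝓞 L) : L) =
      ((((Additive.toMul u : (𝓞 (layerField (L := L) N))ˣ) : 𝓞 (layerField (L := L) N)) :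
        layerField (L := L) N) : L) := rfl

omit hN in
theorem unitsIncl_injective : Function.Injective (unitsIncl (L := L) N) := by
  intro u v huv
  have h1 : Units.map (intIncl (L := L) N).toMonoidHom (Additive.toMul u) =
      Units.map (intIncl (L := L) N).toMonoidHom (Additive.toMul v) := huv
  have h2 := Units.map_injective (f := (intIncl (L := L) N).toMonoidHom) (intIncl_injective N) h1
  exact h2

theorem unitsIncl_equivariant (h : H) (u : Additive (𝓞 (layerField (L := L) N))ˣ) :
    unitsIncl N (unitRho (L := layerField (L := L) N) (H ⧸ N) (h : H ⧸ N) u) =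
      unitRho (L := L) H h (unitsIncl N u) := by
  apply congrArg Additive.ofMul
  apply Units.ext
  apply RingOfIntegers.ext
  change ((((unitSmul (h : H ⧸ N) (Additive.toMul u) : (𝓞 (layerField (L := L) N))ˣ) :
    𝓞 (layerField (L := L) N)) : layerField (L := L) N) : L) =
    (((unitSmul h (Additive.toMul (unitsIncl N u)) : (𝓞 L)ˣ) : 𝓞 L) : L)
  rw [coe_coe_unitSmul, coe_coe_unitSmul, coe_mk_smul]
  rfl

omit hN in
/-- an `N`-invariant element of `L` integral over `ℤ` gives an integer of the layer field -/
theorem exists_int_of_invariant (a : 𝓞 L) (ha : ∀ n ∈ N, n • (a : L) = (a : L)) :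
    ∃ b : 𝓞 (layerField (L := L) N), intIncl N b = a := by
  have hmem : (a : L) ∈ layerField (L := L) N := (mem_layerField N _).2 ha
  have hint : IsIntegral ℤ (⟨(a : L), hmem⟩ : layerField (L := L) N) := by
    have h1 : IsIntegral ℤ (algebraMap (layerField (L := L) N) L ⟨(a : L), hmem⟩) := a.2
    exact (isIntegral_algebraMap_iff
      (FaithfulSMul.algebraMap_injective (layerField (L := L) N) L)).1 h1
  exact ⟨⟨⟨(a : L), hmem⟩, hint⟩, RingOfIntegers.ext rfl⟩

/-- the range of the inclusion of the units of the layer field is the group of `N`-invariant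
units of `L` -/
theorem range_unitsIncl : (unitsIncl (L := L) N).range = invSub (unitRho (L := L) H) N := by
  ext v
  rw [mem_invSub]
  constructor
  · rintro ⟨u, rfl⟩ n hn
    apply congrArg Additive.ofMul
    apply Units.ext
    apply RingOfIntegers.ext
    change (((unitSmul n (Additive.toMul (unitsIncl N u)) : (𝓞 L)ˣ) : 𝓞 L) : L) =
      (((Additive.toMul (unitsIncl N u) : (𝓞 L)ˣ) : 𝓞 L) : L)
    rw [coe_coe_unitSmul, coe_unitsIncl]
    exact (mem_layerField N _).1 (Subtype.property _) n hn
  · intro hv
    set w : (𝓞 L)ˣ := Additive.toMul v with hw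
    have hfix : ∀ n ∈ N, n • (((w : (𝓞 L)ˣ) : 𝓞 L) : L) = (((w : (𝓞 L)ˣ) : 𝓞 L) : L) := by
      intro n hn
      have h1 := hv n hn
      have h2 : unitSmul n w = w := congrArg Additive.toMul h1
      rw [← coe_coe_unitSmul, h2]
    have hfix' : ∀ n ∈ N, n • ((((w⁻¹ : (𝓞 L)ˣ)) : 𝓞 L) : L) = ((((w⁻¹ : (𝓞 L)ˣ)) : 𝓞 L) : L) := by
      intro n hn
      have h1 := hv n hn
      have h2 : unitSmul n w = w := congrArg Additive.toMul h1
      have h3 : unitSmul n w⁻¹ = w⁻¹ := by rw [map_inv, h2]
      rw [← coe_coe_unitSmul, h3]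
    obtain ⟨a, ha⟩ := exists_int_of_invariant N (w : 𝓞 L) hfix
    obtain ⟨b, hb⟩ := exists_int_of_invariant N ((w⁻¹ : (𝓞 L)ˣ) : 𝓞 L) hfix'
    have hab : a * b = 1 := by
      apply intIncl_injective N
      rw [map_mul, ha, hb, map_one, ← Units.val_mul, mul_inv_cancel, Units.val_one]
    have hba : b * a = 1 := by rw [mul_comm, hab]
    refine ⟨Additive.ofMul (⟨a, b, hab, hba⟩ : (𝓞 (layerField (L := L) N))ˣ), ?_⟩
    apply congrArg Additive.ofMul
    apply Units.ext
    exact ha

/-- **Herbrand quotient of the units of a layer**: for `H ⧸ N` cyclic of odd order,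
`q((𝓞_L^×)^N) · |H ⧸ N| = 1`. -/
theorem q_layer_units_odd [Finite H] [FaithfulSMul H L] [Fintype (H ⧸ N)]
    (hodd : Odd (Nat.card (H ⧸ N))) (g : H ⧸ N) (hg : ∀ τ : H ⧸ N, τ ∈ Subgroup.zpowers g) :
    (cyclicPair (layerRho (unitRho (L := L) H) N) g).IsDefined ∧
      (cyclicPair (layerRho (unitRho (L := L) H) N) g).q * Nat.card (H ⧸ N) = 1 := by
  have := faithful_layerAction (L := L) N
  let I := layerIsoOfRange (unitRho (L := L) H) N
    (unitRho (L := layerField (L := L) N) (H ⧸ N)) (unitsIncl N) (unitsIncl_injective N)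
    (unitsIncl_equivariant N) (range_unitsIncl N) g
  refine ⟨I.isDefined_iff.1 (units_isDefined hg), ?_⟩
  rw [← I.q_eq]
  exact q_units_odd hg hodd

end Fermat.Agent.S55.SUnit1.Layer
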