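/-
S55 leaf 16-SUNIT (helper1), part (N): the finite set of primes of a number field `L` above a
finite set `T` of rational primes, its stability under any group acting on `L`, and the
`T`-units in this vocabulary (the shape used by the first inequality: `T : Finset Nat.Primes`).
-/
import Mathlib
import Fermat.Agent.S55.SUnit1.OddOrder

set_option autoImplicit false

namespace Fermat.Agent.S55.SUnit1.OverNat

open NumberField IsDedekindDomain Fermat.Agent.S55.Herbrand54 Fermat.Agent.S55.HerbrandCyclic54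
  Fermat.Agent.S55.SUnit1.Places Fermat.Agent.S55.SUnit1.QUnits Fermat.Agent.S55.SUnit1.QSUnits
  Fermat.Agent.S55.SUnit1.OddOrder Fermat.Agent.S55.SUnit19.SUnitRank

variable (L : Type*) [Field L] [NumberField L]

/-- the primes of `L` containing the rational prime `ℓ` form a finite set -/
theorem finite_primes_over (ℓ : Nat.Primes) :
    {P : HeightOneSpectrum (𝓞 L) | ((ℓ : ℕ) : 𝓞 L) ∈ P.asIdeal}.Finite := by
  have hne : Ideal.span {((ℓ : ℕ) : 𝓞 L)} ≠ 0 := by
    rw [Ne, Ideal.zero_eq_bot, Ideal.span_singleton_eq_bot]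
    exact_mod_cast ℓ.2.ne_zero
  refine (Ideal.finite_factors hne).subset ?_
  intro P hP
  rw [Set.mem_ofPred_eq, Ideal.dvd_iff_le, Ideal.span_singleton_le_iff_mem]
  exact hP

/-- the finite set of primes of `L` above a finite set of rational primes -/
noncomputable def primesOverNat (T : Finset Nat.Primes) : Finset (HeightOneSpectrum (𝓞 L)) :=
  (T.finite_toSet.biUnion (fun ℓ _ => finite_primes_over L ℓ)).toFinset

variable {L}

theorem mem_primesOverNat (T : Finset Nat.Primes) (P : HeightOneSpectrum (𝓞 L)) :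
    P ∈ primesOverNat L T ↔ ∃ ℓ ∈ T, ((ℓ : ℕ) : 𝓞 L) ∈ P.asIdeal := by
  unfold primesOverNat
  rw [Set.Finite.mem_toFinset]
  simp only [Set.mem_iUnion, Set.mem_ofPred_eq, Finset.mem_coe, exists_prop]

theorem notMem_primesOverNat (T : Finset Nat.Primes) (P : HeightOneSpectrum (𝓞 L)) :
    P ∉ primesOverNat L T ↔ ∀ ℓ ∈ T, ((ℓ : ℕ) : 𝓞 L) ∉ P.asIdeal := by
  rw [mem_primesOverNat]
  push Not
  rfl

/-- `T`-units in the vocabulary of rational primes -/
theorem mem_sUnits_primesOverNat (T : Finset Nat.Primes) (x : Lˣ) :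
    x ∈ sUnits L (primesOverNat L T) ↔
      ∀ P : HeightOneSpectrum (𝓞 L), (∀ ℓ ∈ T, ((ℓ : ℕ) : 𝓞 L) ∉ P.asIdeal) →
        P.valuation L (x : L) = 1 := by
  constructor
  · intro hx P hP
    exact hx P (by
      rw [Finset.mem_coe]
      exact (notMem_primesOverNat T P).2 hP)
  · intro hx P hP
    rw [Finset.mem_coe] at hP
    exact hx P ((notMem_primesOverNat T P).1 hP)

variable {G : Type*} [Group G] [MulSemiringAction G L]

/-- the primes above `T` are stable under any group acting on `L` -/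
theorem primesOverNat_stable (T : Finset Nat.Primes) (σ : G) (P : HeightOneSpectrum (𝓞 L))
    (hP : P ∈ primesOverNat L T) : primeSmul σ P ∈ primesOverNat L T := by
  rw [mem_primesOverNat] at hP ⊢
  obtain ⟨ℓ, hℓ, hmem⟩ := hP
  refine ⟨ℓ, hℓ, ?_⟩
  rw [mem_primeSmul]
  have : σ⁻¹ • (((ℓ : ℕ) : 𝓞 L)) = ((ℓ : ℕ) : 𝓞 L) := by
    exact map_natCast (MulSemiringAction.toRingHom G (𝓞 L) σ⁻¹) _
  rw [this]
  exact hmem

variable [Fintype G] [FaithfulSMul G L] {g₀ : G} (hg : ∀ τ : G, τ ∈ Subgroup.zpowers g₀)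

include hg in
/-- **Herbrand quotient of the `T`-units, `T` a finite set of rational primes, odd order**:
`q(𝓞_{L,T}^×) · |G| = ∏_{orbits on primes above T} |decomposition group|` -/
theorem q_sUnits_overNat_odd (hodd : Odd (Nat.card G)) (T : Finset Nat.Primes)
    {κ : Type*} [Fintype κ] (s : κ → HeightOneSpectrum (𝓞 L))
    (hsT : ∀ k, ∃ ℓ ∈ T, ((ℓ : ℕ) : 𝓞 L) ∈ (s k).asIdeal)
    (hs : ∀ P : HeightOneSpectrum (𝓞 L), (∃ ℓ ∈ T, ((ℓ : ℕ) : 𝓞 L) ∈ P.asIdeal) →
      ∃! k, ∃ σ : G, primeSmul σ (s k) = P) :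
    (cyclicPair (sUnitRho G (primesOverNat L T) (primesOverNat_stable T)) g₀).IsDefined ∧
    (cyclicPair (sUnitRho G (primesOverNat L T) (primesOverNat_stable T)) g₀).q * Nat.card G =
      ∏ k, (Nat.card (primeStab G (s k)) : ℚ) :=
  ⟨sUnits_isDefined _ hg,
    q_sUnits_formula_odd _ hg hodd s (fun k => (mem_primesOverNat T _).2 (hsT k))
      (fun P hP => hs P ((mem_primesOverNat T P).1 hP))⟩

end Fermat.Agent.S55.SUnit1.OverNat
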