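/-
S55 leaf 31b-REL-LAYER-UNITS (helper1), `T`-unit part: for a finite group `H` acting faithfully on
a number field `L`, a normal subgroup `N`, and ANY model `K'` of the layer field `L^N` carrying the
action of `H ⧸ N`, the `(H ⧸ N)`-module of `N`-invariant `T`-units of `L` is the module of `T`-units
of `K'`; its Herbrand quotient for `H ⧸ N` cyclic of odd order:
`q((𝓞_{L,T}^×)^N) · |H ⧸ N| = ∏_{orbits of H ⧸ N on primes of K' above T} |decomposition group|`.
-/
import Mathlib
import Fermat.Agent.S55.SUnit19.Fixed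
import Fermat.Agent.S55.SUnit1.OverNat
import Fermat.Agent.S55.SUnit1.Layer

set_option autoImplicit false
set_option linter.unusedSectionVars false

namespace Fermat.Agent.S55.SUnit1.LayerSUnits

open NumberField IsDedekindDomain Fermat.Agent.S55.Herbrand54 Fermat.Agent.S55.HerbrandCyclic54
  Fermat.Agent.S55.SUnit1.Places Fermat.Agent.S55.SUnit1.QUnits Fermat.Agent.S55.SUnit1.QSUnits
  Fermat.Agent.S55.SUnit1.OddOrder Fermat.Agent.S55.SUnit1.OverNat
  Fermat.Agent.S55.SUnit1.LayerRho Fermat.Agent.S55.SUnit1.Layer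
  Fermat.Agent.S55.SUnit19.SUnitRank Fermat.Agent.S55.SUnit19.Fixed

section IsOver

variable (K L : Type*) [Field K] [NumberField K] [Field L] [NumberField L] [Algebra K L]

/-- the primes of `L` above `T` are the primes above the primes of `K` above `T` -/
theorem isOver_primesOverNat (T : Finset Nat.Primes) :
    IsOver K L (primesOverNat K T) (primesOverNat L T) := by
  intro w
  rw [mem_primesOverNat, mem_primesOverNat]
  have key : ∀ ℓ : ℕ, ((ℓ : 𝓞 K) ∈ (w.under (𝓞 K)).asIdeal ↔ ((ℓ : 𝓞 L)) ∈ w.asIdeal) := by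
    intro ℓ
    rw [HeightOneSpectrum.under_asIdeal, Ideal.under_def, Ideal.mem_comap, map_natCast]
  constructor
  · rintro ⟨ℓ, hℓ, h⟩
    exact ⟨ℓ, hℓ, (key ℓ).2 h⟩
  · rintro ⟨ℓ, hℓ, h⟩
    exact ⟨ℓ, hℓ, (key ℓ).1 h⟩

end IsOver

section Abstract

variable {L : Type*} [Field L] [NumberField L] {H : Type*} [Group H] [MulSemiringAction H L]
  (N : Subgroup H) [hN : N.Normal]
  (K' : Type*) [Field K'] [NumberField K'] [Algebra K' L] [MulSemiringAction (H ⧸ N) K']
  (hequiv : ∀ (h : H) (x : K'), algebraMap K' L ((h : H ⧸ N) • x) = h • algebraMap K' L x)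
  (hsurj : ∀ y : L, (∀ n ∈ N, n • y = y) → ∃ x : K', algebraMap K' L x = y)
  (T : Finset Nat.Primes)

/-- the `H`-module of `T`-units of `L` -/
noncomputable abbrev rhoL : H →* AddMonoid.End (Additive ↥(sUnits L (primesOverNat L T))) :=
  sUnitRho H (primesOverNat L T) (primesOverNat_stable T)

/-- the `(H ⧸ N)`-module of `T`-units of the layer field -/
noncomputable abbrev rhoK :
    H ⧸ N →* AddMonoid.End (Additive ↥(sUnits K' (primesOverNat K' T))) :=
  sUnitRho (H ⧸ N) (primesOverNat K' T) (primesOverNat_stable T)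

/-- the inclusion of the `T`-units of the layer field into the `T`-units of `L` -/
noncomputable def sUnitsIncl :
    Additive ↥(sUnits K' (primesOverNat K' T)) →+ Additive ↥(sUnits L (primesOverNat L T)) :=
  MonoidHom.toAdditive (mapSUnits (isOver_primesOverNat K' L T))

theorem coe_sUnitsIncl (u : Additive ↥(sUnits K' (primesOverNat K' T))) :
    (((Additive.toMul (sUnitsIncl (L := L) K' T u) : ↥(sUnits L (primesOverNat L T))) : Lˣ) : L) =
      algebraMap K' L (((Additive.toMul u : ↥(sUnits K' (primesOverNat K' T))) : K'ˣ) : K') := rfl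

theorem sUnitsIncl_injective : Function.Injective (sUnitsIncl (L := L) K' T) := by
  intro u v huv
  exact mapSUnits_injective (isOver_primesOverNat K' L T) huv

include hequiv in
theorem sUnitsIncl_equivariant (h : H) (u : Additive ↥(sUnits K' (primesOverNat K' T))) :
    sUnitsIncl (L := L) K' T (rhoK N K' T (h : H ⧸ N) u) = rhoL (L := L) (H := H) T h
      (sUnitsIncl (L := L) K' T u) := by
  apply congrArg Additive.ofMul
  apply Subtype.ext
  apply Units.ext
  change algebraMap K' L ((h : H ⧸ N) • (((Additive.toMul u :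
      ↥(sUnits K' (primesOverNat K' T))) : K'ˣ) : K')) =
    h • algebraMap K' L (((Additive.toMul u : ↥(sUnits K' (primesOverNat K' T))) : K'ˣ) : K')
  exact hequiv h _

include hequiv hsurj in
theorem range_sUnitsIncl :
    (sUnitsIncl (L := L) K' T).range = invSub (rhoL (L := L) (H := H) T) N := by
  ext v
  rw [mem_invSub]
  constructor
  · rintro ⟨u, rfl⟩ n hn
    have h1 := sUnitsIncl_equivariant N K' hequiv T n u
    have h2 : ((n : H) : H ⧸ N) = 1 := (QuotientGroup.eq_one_iff n).2 hn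
    rw [h2, map_one] at h1
    exact h1.symm
  · intro hv
    set w : ↥(sUnits L (primesOverNat L T)) := Additive.toMul v with hw
    have hfix : ∀ n ∈ N, n • (((w : Lˣ)) : L) = ((w : Lˣ) : L) := by
      intro n hn
      have h1 := hv n hn
      have h2 : sUnitSmul H (primesOverNat L T) (primesOverNat_stable T) n w = w :=
        congrArg Additive.toMul h1
      have h3 := congrArg (fun z : ↥(sUnits L (primesOverNat L T)) => ((z : Lˣ) : L)) h2
      exact h3
    obtain ⟨x, hx⟩ := hsurj _ hfix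
    have hx0 : x ≠ 0 := by
      rintro rfl
      rw [map_zero] at hx
      exact (w : Lˣ).ne_zero hx.symm
    have hmap : Units.map (algebraMap K' L : K' →* L) (Units.mk0 x hx0) = (w : Lˣ) :=
      Units.ext hx
    have hmem : Units.mk0 x hx0 ∈ sUnits K' (primesOverNat K' T) := by
      apply mem_sUnits_of_map_mem (isOver_primesOverNat K' L T)
      rw [hmap]
      exact w.2
    refine ⟨Additive.ofMul ⟨Units.mk0 x hx0, hmem⟩, ?_⟩
    apply congrArg Additive.ofMul
    apply Subtype.ext
    exact hmap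

variable [Finite H] [Fintype (H ⧸ N)] [FaithfulSMul (H ⧸ N) K']

include hequiv hsurj in
/-- **Herbrand quotient of the `T`-units of a layer** (any model `K'` of the layer field) -/
theorem q_layer_sUnits_odd_of_model (hodd : Odd (Nat.card (H ⧸ N))) (g : H ⧸ N)
    (hg : ∀ τ : H ⧸ N, τ ∈ Subgroup.zpowers g) {κ : Type*} [Fintype κ]
    (s : κ → HeightOneSpectrum (𝓞 K'))
    (hsT : ∀ k, ∃ ℓ ∈ T, ((ℓ : ℕ) : 𝓞 K') ∈ (s k).asIdeal)
    (hs : ∀ P : HeightOneSpectrum (𝓞 K'), (∃ ℓ ∈ T, ((ℓ : ℕ) : 𝓞 K') ∈ P.asIdeal) →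
      ∃! k, ∃ σ : H ⧸ N, primeSmul σ (s k) = P) :
    (cyclicPair (layerRho (rhoL (L := L) (H := H) T) N) g).IsDefined ∧
      (cyclicPair (layerRho (rhoL (L := L) (H := H) T) N) g).q * Nat.card (H ⧸ N) =
        ∏ k, (Nat.card (primeStab (H ⧸ N) (s k)) : ℚ) := by
  let I := layerIsoOfRange (rhoL (L := L) (H := H) T) N (rhoK N K' T) (sUnitsIncl (L := L) K' T)
    (sUnitsIncl_injective K' T) (sUnitsIncl_equivariant N K' hequiv T)
    (range_sUnitsIncl N K' hequiv hsurj T) g
  obtain ⟨h1, h2⟩ := q_sUnits_overNat_odd (L := K') (G := H ⧸ N) hg hodd T s hsT hs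
  refine ⟨I.isDefined_iff.1 h1, ?_⟩
  rw [← I.q_eq]
  exact h2

/-! ### units, any model of the layer field -/

/-- the inclusion of the units of a model of the layer field -/
noncomputable def unitsInclOfModel : Additive (𝓞 K')ˣ →+ Additive (𝓞 L)ˣ :=
  MonoidHom.toAdditive (Units.map (algebraMap (𝓞 K') (𝓞 L)).toMonoidHom)

theorem coe_unitsInclOfModel (u : Additive (𝓞 K')ˣ) :
    (((Additive.toMul (unitsInclOfModel (L := L) K' u) : (𝓞 L)ˣ) : 𝓞 L) : L) =
      algebraMap K' L (((Additive.toMul u : (𝓞 K')ˣ) : 𝓞 K') : K') := rfl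

theorem unitsInclOfModel_injective : Function.Injective (unitsInclOfModel (L := L) K') := by
  intro u v huv
  have h1 : Units.map (algebraMap (𝓞 K') (𝓞 L)).toMonoidHom (Additive.toMul u) =
      Units.map (algebraMap (𝓞 K') (𝓞 L)).toMonoidHom (Additive.toMul v) := huv
  exact Units.map_injective (f := (algebraMap (𝓞 K') (𝓞 L)).toMonoidHom)
    (RingOfIntegers.algebraMap.injective K' L) h1

include hequiv in
theorem unitsInclOfModel_equivariant (h : H) (u : Additive (𝓞 K')ˣ) :
    unitsInclOfModel (L := L) K' (unitRho (L := K') (H ⧸ N) (h : H ⧸ N) u) =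
      unitRho (L := L) H h (unitsInclOfModel (L := L) K' u) := by
  apply congrArg Additive.ofMul
  apply Units.ext
  apply RingOfIntegers.ext
  change algebraMap K' L ((((unitSmul (h : H ⧸ N) (Additive.toMul u) : (𝓞 K')ˣ) : 𝓞 K') : K')) =
    (((unitSmul h (Additive.toMul (unitsInclOfModel (L := L) K' u)) : (𝓞 L)ˣ) : 𝓞 L) : L)
  rw [coe_coe_unitSmul, coe_coe_unitSmul, hequiv]
  rfl

include hsurj in
theorem exists_int_of_invariant_of_model (a : 𝓞 L) (ha : ∀ n ∈ N, n • (a : L) = (a : L)) :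
    ∃ b : 𝓞 K', algebraMap (𝓞 K') (𝓞 L) b = a := by
  obtain ⟨x, hx⟩ := hsurj _ ha
  have hint : IsIntegral ℤ x := by
    have h1 : IsIntegral ℤ (algebraMap K' L x) := by
      rw [hx]
      exact a.2
    exact (isIntegral_algebraMap_iff (algebraMap K' L).injective).1 h1
  exact ⟨⟨x, hint⟩, RingOfIntegers.ext hx⟩

include hequiv hsurj in
theorem range_unitsInclOfModel :
    (unitsInclOfModel (L := L) K').range = invSub (unitRho (L := L) H) N := by
  ext v
  rw [mem_invSub]
  constructor
  · rintro ⟨u, rfl⟩ n hn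
    have h1 := unitsInclOfModel_equivariant N K' hequiv n u
    have h2 : ((n : H) : H ⧸ N) = 1 := (QuotientGroup.eq_one_iff n).2 hn
    rw [h2, map_one] at h1
    exact h1.symm
  · intro hv
    set w : (𝓞 L)ˣ := Additive.toMul v with hw
    have hfix : ∀ n ∈ N, n • (((w : (𝓞 L)ˣ) : 𝓞 L) : L) = (((w : (𝓞 L)ˣ) : 𝓞 L) : L) := by
      intro n hn
      have h1 := hv n hn
      have h2 : unitSmul n w = w := congrArg Additive.toMul h1
      rw [← coe_coe_unitSmul, h2]
    have hfix' : ∀ n ∈ N, n • ((((w⁻¹ : (𝓞 L)ˣ)) : 𝓞 L) : L) = ((((w⁻¹ : (𝓞 L)ˣ)) : 𝓞 L) : L) := by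
      intro n hn
      have h1 := hv n hn
      have h2 : unitSmul n w = w := congrArg Additive.toMul h1
      have h3 : unitSmul n w⁻¹ = w⁻¹ := by rw [map_inv, h2]
      rw [← coe_coe_unitSmul, h3]
    obtain ⟨a, ha⟩ := exists_int_of_invariant_of_model N K' hsurj (w : 𝓞 L) hfix
    obtain ⟨b, hb⟩ := exists_int_of_invariant_of_model N K' hsurj ((w⁻¹ : (𝓞 L)ˣ) : 𝓞 L) hfix'
    have hab : a * b = 1 := by
      apply RingOfIntegers.algebraMap.injective K' L
      rw [map_mul, ha, hb, map_one, ← Units.val_mul, mul_inv_cancel, Units.val_one]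
    have hba : b * a = 1 := by rw [mul_comm, hab]
    refine ⟨Additive.ofMul (⟨a, b, hab, hba⟩ : (𝓞 K')ˣ), ?_⟩
    apply congrArg Additive.ofMul
    apply Units.ext
    exact ha

include hequiv hsurj in
/-- **Herbrand quotient of the units of a layer** (any model `K'` of the layer field) -/
theorem q_layer_units_odd_of_model (hodd : Odd (Nat.card (H ⧸ N))) (g : H ⧸ N)
    (hg : ∀ τ : H ⧸ N, τ ∈ Subgroup.zpowers g) :
    (cyclicPair (layerRho (unitRho (L := L) H) N) g).IsDefined ∧
      (cyclicPair (layerRho (unitRho (L := L) H) N) g).q * Nat.card (H ⧸ N) = 1 := by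
  let I := layerIsoOfRange (unitRho (L := L) H) N (unitRho (L := K') (H ⧸ N))
    (unitsInclOfModel (L := L) K') (unitsInclOfModel_injective K')
    (unitsInclOfModel_equivariant N K' hequiv) (range_unitsInclOfModel N K' hequiv hsurj) g
  refine ⟨I.isDefined_iff.1 (units_isDefined hg), ?_⟩
  rw [← I.q_eq]
  exact q_units_odd hg hodd

end Abstract

section Concrete

variable {L : Type*} [Field L] [NumberField L] {H : Type*} [Group H] [MulSemiringAction H L]
  (N : Subgroup H) [hN : N.Normal] [Finite H] [FaithfulSMul H L] [Fintype (H ⧸ N)]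
  (T : Finset Nat.Primes)

attribute [local instance] layerAction

/-- **Herbrand quotient of the `T`-units of a layer**, layer field `FixedPoints.subfield N L` -/
theorem q_layer_sUnits_odd (hodd : Odd (Nat.card (H ⧸ N))) (g : H ⧸ N)
    (hg : ∀ τ : H ⧸ N, τ ∈ Subgroup.zpowers g) {κ : Type*} [Fintype κ]
    (s : κ → HeightOneSpectrum (𝓞 (layerField (L := L) N)))
    (hsT : ∀ k, ∃ ℓ ∈ T, ((ℓ : ℕ) : 𝓞 (layerField (L := L) N)) ∈ (s k).asIdeal)
    (hs : ∀ P : HeightOneSpectrum (𝓞 (layerField (L := L) N)),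
      (∃ ℓ ∈ T, ((ℓ : ℕ) : 𝓞 (layerField (L := L) N)) ∈ P.asIdeal) →
      ∃! k, ∃ σ : H ⧸ N, primeSmul σ (s k) = P) :
    (cyclicPair (layerRho (rhoL (L := L) (H := H) T) N) g).IsDefined ∧
      (cyclicPair (layerRho (rhoL (L := L) (H := H) T) N) g).q * Nat.card (H ⧸ N) =
        ∏ k, (Nat.card (primeStab (H ⧸ N) (s k)) : ℚ) := by
  have := faithful_layerAction (L := L) N
  exact q_layer_sUnits_odd_of_model N (layerField (L := L) N) (fun h x => coe_mk_smul N h x)
    (fun y hy => ⟨⟨y, (mem_layerField N y).2 hy⟩, rfl⟩) T hodd g hg s hsT hs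

end Concrete

end Fermat.Agent.S55.SUnit1.LayerSUnits
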