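/-
S55 leaf 31b-REL-LAYER-UNITS (helper1), intermediate-field model: if `K' : IntermediateField F L`
is the set of `N`-fixed elements of `L` (`N ⊴ H`, `H` acting on `L`), then `H ⧸ N` acts faithfully
on `K'`, and the layer theorems of `LayerSUnits` apply to `K'`.  This is the model used by
`FirstIneq16.RelBridge.layerField` and `CLDescent35.Layer.layerField`.
-/
import Mathlib
import Fermat.Agent.S55.SUnit1.LayerSUnits

set_option autoImplicit false
set_option linter.unusedSectionVars false

namespace Fermat.Agent.S55.SUnit1.LayerIF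

open NumberField IsDedekindDomain Fermat.Agent.S55.Herbrand54 Fermat.Agent.S55.HerbrandCyclic54
  Fermat.Agent.S55.SUnit1.Places Fermat.Agent.S55.SUnit1.QUnits Fermat.Agent.S55.SUnit1.QSUnits
  Fermat.Agent.S55.SUnit1.LayerRho Fermat.Agent.S55.SUnit1.Layer
  Fermat.Agent.S55.SUnit1.LayerSUnits

variable {L : Type*} [Field L] {H : Type*} [Group H] [MulSemiringAction H L]
  (N : Subgroup H) [hN : N.Normal] {F : Type*} [Field F] [Algebra F L]
  (K' : IntermediateField F L) (hK' : ∀ x : L, x ∈ K' ↔ ∀ n ∈ N, n • x = x)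

include hK' in
theorem smul_mem_IF (h : H) (x : L) (hx : x ∈ K') : h • x ∈ K' := by
  rw [hK'] at hx ⊢
  intro n hn
  have hconj : h⁻¹ * n * h ∈ N := by
    have := Subgroup.Normal.conj_mem hN n hn h⁻¹
    simpa using this
  have h1 : n * h = h * (h⁻¹ * n * h) := by group
  rw [← mul_smul, h1, mul_smul, hx _ hconj]

/-- the action of `H ⧸ N` on an intermediate field equal to the field of `N`-fixed elements -/
@[reducible] noncomputable def layerActionIF : MulSemiringAction (H ⧸ N) K' where
  smul q x := Quotient.liftOn' q (fun h => (⟨h • (x : L), smul_mem_IF N K' hK' h (x : L) x.2⟩ : K'))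
    (fun a b hab => by
      apply Subtype.ext
      change a • (x : L) = b • (x : L)
      have hmem : a⁻¹ * b ∈ N := QuotientGroup.leftRel_apply.1 hab
      have hx := (hK' _).1 x.2 _ hmem
      have h1 : b = a * (a⁻¹ * b) := by group
      rw [h1, mul_smul, hx])
  one_smul x := Subtype.ext (one_smul H (x : L))
  mul_smul q₁ q₂ x := Quotient.inductionOn₂' q₁ q₂ fun g h => Subtype.ext (mul_smul g h (x : L))
  smul_add q x y := Quotient.inductionOn' q fun g => Subtype.ext (smul_add g (x : L) (y : L))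
  smul_zero q := Quotient.inductionOn' q fun g => Subtype.ext (smul_zero g)
  smul_one q := Quotient.inductionOn' q fun g => Subtype.ext (smul_one g)
  smul_mul q x y := Quotient.inductionOn' q fun g => Subtype.ext (smul_mul' g (x : L) (y : L))

theorem coe_mk_smul_IF (h : H) (x : K') :
    letI := layerActionIF N K' hK'
    ((((h : H ⧸ N) • x : K')) : L) = h • (x : L) := rfl

theorem hequiv_IF (h : H) (x : K') :
    letI := layerActionIF N K' hK'
    algebraMap K' L ((h : H ⧸ N) • x) = h • algebraMap K' L x := rfl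

include hK' in
theorem hsurj_IF (y : L) (hy : ∀ n ∈ N, n • y = y) : ∃ x : K', algebraMap K' L x = y :=
  ⟨⟨y, (hK' y).2 hy⟩, rfl⟩

include hK' in
/-- Artin: an element of `H` fixing `K'` pointwise lies in `N` -/
theorem mem_of_fixes_IF [Finite H] [FaithfulSMul H L] (h : H) (hfix : ∀ x ∈ K', h • x = x) :
    h ∈ N := by
  apply mem_of_fixes (L := L) N h
  intro x hx
  exact hfix x ((hK' x).2 ((mem_layerField N x).1 hx))

/-- the action of `H ⧸ N` on `K'` is faithful -/
theorem faithful_layerActionIF [Finite H] [FaithfulSMul H L] :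
    letI := layerActionIF N K' hK'
    FaithfulSMul (H ⧸ N) K' := by
  let _ := layerActionIF N K' hK'
  refine ⟨fun {q₁ q₂} => ?_⟩
  refine Quotient.inductionOn₂' q₁ q₂ fun a b hab => ?_
  apply QuotientGroup.eq.2
  apply mem_of_fixes_IF N K' hK'
  intro x hx
  have h1 := congrArg Subtype.val (hab ⟨x, hx⟩)
  have h2 : a • x = b • x := h1
  rw [mul_smul, ← h2, ← mul_smul, inv_mul_cancel, one_smul]

variable [NumberField L] [NumberField K'] [Finite H] [FaithfulSMul H L] [Fintype (H ⧸ N)]

include hK' in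
/-- **Herbrand quotient of the units of a layer**, intermediate-field model (the statement does
not mention `K'`) -/
theorem q_layer_units_odd_IF (hodd : Odd (Nat.card (H ⧸ N))) (g : H ⧸ N)
    (hg : ∀ τ : H ⧸ N, τ ∈ Subgroup.zpowers g) :
    (cyclicPair (layerRho (unitRho (L := L) H) N) g).IsDefined ∧
      (cyclicPair (layerRho (unitRho (L := L) H) N) g).q * Nat.card (H ⧸ N) = 1 := by
  let _ := layerActionIF N K' hK'
  have := faithful_layerActionIF N K' hK'
  exact q_layer_units_odd_of_model N K' (hequiv_IF N K' hK') (hsurj_IF N K' hK') hodd g hg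

/-- **Herbrand quotient of the `T`-units of a layer**, intermediate-field model -/
theorem q_layer_sUnits_odd_IF (T : Finset Nat.Primes) (hodd : Odd (Nat.card (H ⧸ N)))
    (g : H ⧸ N) (hg : ∀ τ : H ⧸ N, τ ∈ Subgroup.zpowers g) {κ : Type*} [Fintype κ]
    (s : κ → HeightOneSpectrum (𝓞 K'))
    (hsT : ∀ k, ∃ ℓ ∈ T, ((ℓ : ℕ) : 𝓞 K') ∈ (s k).asIdeal)
    (hs : letI := layerActionIF N K' hK'
      ∀ P : HeightOneSpectrum (𝓞 K'), (∃ ℓ ∈ T, ((ℓ : ℕ) : 𝓞 K') ∈ P.asIdeal) →
      ∃! k, ∃ σ : H ⧸ N, primeSmul σ (s k) = P) :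
    letI := layerActionIF N K' hK'
    (cyclicPair (layerRho (rhoL (L := L) (H := H) T) N) g).IsDefined ∧
      (cyclicPair (layerRho (rhoL (L := L) (H := H) T) N) g).q * Nat.card (H ⧸ N) =
        ∏ k, (Nat.card (primeStab (H ⧸ N) (s k)) : ℚ) := by
  let _ := layerActionIF N K' hK'
  have := faithful_layerActionIF N K' hK'
  exact q_layer_sUnits_odd_of_model N K' (hequiv_IF N K' hK') (hsurj_IF N K' hK') T hodd g hg
    s hsT hs

end Fermat.Agent.S55.SUnit1.LayerIF
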