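/-
S55 leaf 31 (L3)+(L4) (helper1): the `hE` input of helper27's `FirstIneq27.Main.layer_first_ineq_CS`
in its literal shape.  `beta T h : Lx L ⟶ IO L S T` (divisors outside `S ∪ T`, `S ⊆ T`) has kernel
the `T`-units, so `SUnit1.HEIso.heIsoOf` identifies the kernel of its layer map with the module of
`N`-invariant `T`-units of `L`, whose Herbrand quotient is helper16's `Match.q_layer_sUnits_eq`
(through `SUnit1.LayerIF.q_layer_sUnits_odd_IF`).
-/
import Mathlib
import Fermat.Agent.S55.SUnit1.HEIso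
import Fermat.Agent.S55.FirstIneq27.Main
import Fermat.Agent.S55.FirstIneq16.Match

set_option autoImplicit false
set_option linter.unusedSectionVars false

namespace Fermat.Agent.S55.SUnit1.HEIsoBeta

open NumberField IsDedekindDomain CategoryTheory
open Fermat.Agent.S55.Herbrand54 Fermat.Agent.S55.HerbrandCyclic54 Fermat.Agent.S55.HerbrandHcyc54
open Fermat.Agent.S55.Idele73.Basic Fermat.Agent.S55.Idele73.Local
  Fermat.Agent.S55.Idele73.Components Fermat.Agent.S55.Idele73.LayerJq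
  Fermat.Agent.S55.Idele73 Fermat.Agent.S55.IdeleVal44
open Fermat.Agent.S55.SUnit1.HomSES Fermat.Agent.S55.SUnit1.LayerRho
  Fermat.Agent.S55.SUnit1.LayerSUnits Fermat.Agent.S55.SUnit1.HEIso
open Fermat.Agent.S55.FirstIneq27.Layer Fermat.Agent.S55.FirstIneq27.Split
  Fermat.Agent.S55.FirstIneq27.Main Fermat.Agent.S55.Adapt77.HcycGlue

attribute [local instance] Fermat.Agent.S55.IdeleVal44.factPrimes44

variable {L : IntermediateField ℚ Qbar} [Normal ℚ L] [FiniteDimensional ℚ L]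
variable {S : Finset Nat.Primes} (T : Finset Nat.Primes) (h : UnrOutside L S)

/-- the kernel of `beta T h` is the group of `T`-units (`S ⊆ T`) -/
theorem kerIsSUnits_beta (hST : S ⊆ T) : KerIsSUnits (beta T h) T := by
  intro x
  rw [mem_ESsub_iff]
  constructor
  · intro h0 ℓ hℓ
    have hℓS : ℓ ∉ S := fun hS => hℓ (hST hS)
    rw [← divAt_eq_zero_iff h ⟨ℓ, hℓS⟩, ← idealMap_hom_apply]
    have h1 := congrArg (fun y : (IO L S T).V =>
      dsRep.toDS (subFam (Zfam L S) (fun ℓ => ¬ inT S T ℓ)) y ⟨⟨ℓ, hℓS⟩, hℓ⟩) h0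
    exact h1
  · intro h0
    apply dsRep.ext
    intro i
    rw [beta_apply, res_apply, idealMap_hom_apply, dsRep.toDS_zero]
    exact (divAt_eq_zero_iff h i.1 x).mpr (h0 i.1.1 i.2)

variable (H : Subgroup (GalL L)) (N : Subgroup H) [N.Normal] [Fintype (H ⧸ N)] (g : H ⧸ N)

/-- **(L3)** for helper27's `beta T h` -/
noncomputable def heIsoBeta (hST : S ⊆ T) :
    Pair.Iso (kerPair (layerHom (beta T h) H N g))
      (cyclicPair (layerRho (rhoL (L := ↥L) (H := ↥H) T) N) g) :=
  heIsoOf (beta T h) (kerIsSUnits_beta T h hST) H N g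

/-- **the `hE` input of `FirstIneq27.Main.layer_first_ineq_CS`**, with the local product of
helper73's `PairJq.layerPair_JS` / helper16's `PermFactor` on the right. -/
theorem hE_beta (hST : S ⊆ T) (hodd : Odd (Nat.card (H ⧸ N)))
    (hg : ∀ τ : H ⧸ N, τ ∈ Subgroup.zpowers g) (R : InS T → Finset (GalL L))
    (hR : ∀ ℓ : InS T, Mackey.IsRepr (jE ((ℓ.1 : Nat.Primes) : ℕ) L) H (R ℓ)) :
    (kerPair (layerHom (beta T h) H N g)).IsDefined ∧
      (kerPair (layerHom (beta T h) H N g)).q * Nat.card (H ⧸ N) =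
        ((∏ ℓ : InS T, ∏ x : R ℓ,
          Nat.card (Dx ((ℓ.1 : Nat.Primes) : ℕ) L H x ⧸
            MxJ ((ℓ.1 : Nat.Primes) : ℕ) L H N x) : ℕ) : ℚ) := by
  have h1 := Fermat.Agent.S55.FirstIneq16.Match.q_layer_sUnits_eq L H N T R hodd g hg hR
  have I := heIsoBeta T h H N g hST
  exact ⟨I.isDefined_iff.2 h1.1, by rw [I.q_eq]; exact h1.2⟩

end Fermat.Agent.S55.SUnit1.HEIsoBeta
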