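/-
S55 / 31-FIRST-INEQ, closing the last named hypothesis (helper1): helper73's `FirstOut.UnitFactor`
is `SUnit1.HEIsoBeta.hE_beta`, hence the FIRST INEQUALITY `FirstIneqOut (CS h) ⊤ p` for helper44's
`S`-idele class module `C_S(L)` holds UNCONDITIONALLY for every odd `p` (`S` nonempty,
`L` unramified outside `S`).
-/
import Mathlib
import Fermat.Agent.S55.SUnit1.HEIsoBeta
import Fermat.Agent.S55.Idele73.FirstOut

set_option autoImplicit false
set_option linter.unusedSectionVars false

namespace Fermat.Agent.S55.SUnit1.FirstOutFinal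

open Fermat.Agent.S55.Idele73.Basic Fermat.Agent.S55.IdeleVal44
open Fermat.Agent.S55.Adapt77.HcycGlue Fermat.Agent.S55.Idele73.FirstOut

attribute [local instance] Fermat.Agent.S55.IdeleVal44.factPrimes44

variable {L : IntermediateField ℚ Qbar} [Normal ℚ L] [FiniteDimensional ℚ L]
variable {S : Finset Nat.Primes} (T : Finset Nat.Primes) (h : UnrOutside L S)

/-- helper73's named hypothesis `UnitFactor` holds for every `T ⊇ S` -/
theorem unitFactor (hST : S ⊆ T) : UnitFactor T h :=
  fun H N _ _ g hodd hg R hR =>
    Fermat.Agent.S55.SUnit1.HEIsoBeta.hE_beta T h H N g hST hodd hg R hR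

/-- **(31-OUT) for `C_S(L)`, unconditional**: the first inequality for all cyclic layers of odd
order `p` of helper44's `S`-idele class module. -/
theorem firstIneqOut_CS (hS : S.Nonempty) (p : ℕ) (hp : Odd p) :
    FirstIneqOut (CS h) ⊤ p :=
  Fermat.Agent.S55.Idele73.FirstOut.firstIneqOut_CS h hS (fun T hST => unitFactor T h hST) p hp

end Fermat.Agent.S55.SUnit1.FirstOutFinal
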