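/-
S55 leaf 31 (L3) (helper1): the `hE`-isomorphism of the first inequality.  In helper73/helper44's
place-free model (`L : IntermediateField ℚ Qbar` a level, `Lx L`, `idealMap hT : Lx L ⟶ IS L T`),
the kernel of the layer map `(Lx)^N → (IS)^N` of a layer `N ⊴ H ≤ Gal(L/ℚ)` is the
`(H ⧸ N)`-module of `N`-invariant `T`-units of the number field `L` (Mathlib `Set.unit`), whose
Herbrand quotient is computed in `SUnit1.LayerSUnits`.
-/
import Mathlib
import Fermat.Agent.S55.IdeleVal44.Ideal
import Fermat.Agent.S55.FirstIneq27.Layer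
import Fermat.Agent.S55.FirstIneq27.Dict
import Fermat.Agent.S55.FirstIneq27.Class
import Fermat.Agent.S55.SUnit1.LayerIF

set_option autoImplicit false
set_option linter.unusedSectionVars false

namespace Fermat.Agent.S55.SUnit1.HEIso

open NumberField IsDedekindDomain CategoryTheory
open Fermat.Agent.S55.Herbrand54 Fermat.Agent.S55.HerbrandCyclic54 Fermat.Agent.S55.HerbrandHcyc54
open Fermat.Agent.S55.Idele73.Basic Fermat.Agent.S55.IdeleVal44
open Fermat.Agent.S55.SUnit1.Places Fermat.Agent.S55.SUnit1.QUnits Fermat.Agent.S55.SUnit1.QSUnits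
  Fermat.Agent.S55.SUnit1.OverNat Fermat.Agent.S55.SUnit1.HomSES Fermat.Agent.S55.SUnit1.LayerRho
  Fermat.Agent.S55.SUnit1.LayerSUnits Fermat.Agent.S55.SUnit19.SUnitRank
open Fermat.Agent.S55.FirstIneq27.Dict Fermat.Agent.S55.FirstIneq27.Layer
  Fermat.Agent.S55.Adapt77.HcycGlue

attribute [local instance] Fermat.Agent.S55.IdeleVal44.factPrimes44

variable (L : IntermediateField ℚ Qbar) [Normal ℚ L] [NumberField L] (T : Finset Nat.Primes)

/-- the place-free `T`-units are Mathlib's `T`-units at the primes of `L` above `T` -/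
theorem mem_ESsub_iff_mem_sUnits (x : Lˣ) :
    x ∈ ESsub L T ↔ x ∈ sUnits L (primesOverNat L T) := by
  rw [mem_sUnits_primesOverNat, mem_ESsub_iff]
  constructor
  · intro hx P hP
    obtain ⟨q, hq⟩ := Fermat.Agent.S55.FirstIneq27.Class.exists_prime_natCast_mem (F := L) P
    have hqT : q ∉ T := fun h => hP q h hq
    obtain ⟨g, rfl⟩ := exists_primeOf_eq q.1 L P hq
    rw [valuation_primeOf_eq_one_iff, emb_apply]
    have := hx q hqT g
    exact congrArg (fun r : NNReal => (r : ℝ)) this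
  · intro hx ℓ hℓ g
    have hP : ∀ ℓ' ∈ T, ((ℓ' : ℕ) : 𝓞 L) ∉ (primeOf ℓ.1 L g).asIdeal := by
      intro ℓ' hℓ' hmem
      have h1 := eq_of_natCast_mem_primeOf ℓ.1 L g ℓ'.2 hmem
      have h2 : ℓ' = ℓ := Subtype.ext h1
      exact hℓ (h2 ▸ hℓ')
    have h3 := hx (primeOf ℓ.1 L g) hP
    rw [valuation_primeOf_eq_one_iff, emb_apply] at h3
    exact NNReal.eq h3

variable {L T}
variable {B : Rep ℤ (GalL L)} (φ : Lx L ⟶ B)

/-- the unit underlying an element of `Lx L` -/
noncomputable def toUnit (x : (Lx L).V) : Lˣ := (Rep.toAdditive (M := GalL L) (G := Lˣ) x).toMul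

theorem toUnit_eq (x : (Lx L).V) : toUnit x = ((Rep.toAdditive x).toMul : Lˣ) := rfl

theorem coe_toUnit_rho (σ : GalL L) (x : (Lx L).V) :
    ((toUnit ((Lx L).ρ σ x) : Lˣ) : L) = σ ((toUnit x : Lˣ) : L) := rfl

theorem toUnit_add (x y : (Lx L).V) : toUnit (x + y) = toUnit x * toUnit y := rfl

theorem toUnit_zero : toUnit (0 : (Lx L).V) = 1 := rfl

/-- the element of `Lx L` of a unit -/
noncomputable def ofUnit (u : Lˣ) : (Lx L).V :=
  (Rep.toAdditive (M := GalL L) (G := Lˣ)).symm (Additive.ofMul u)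

theorem toUnit_ofUnit (u : Lˣ) : toUnit (ofUnit u) = u := rfl

theorem ofUnit_toUnit (x : (Lx L).V) : ofUnit (toUnit x) = x := rfl

/-- the hypothesis on `φ`: its kernel is the group of place-free `T`-units -/
def KerIsSUnits (T : Finset Nat.Primes) : Prop :=
  ∀ x : (Lx L).V, φ.hom x = 0 ↔ ((Rep.toAdditive x).toMul : Lˣ) ∈ ESsub L T

variable (hφ : KerIsSUnits φ T) (H : Subgroup (GalL L)) (N : Subgroup H) [N.Normal]
  [Fintype (H ⧸ N)] (g : H ⧸ N)

include hφ in
theorem mem_ker_iff (x : (layer (Lx L) H N).V) :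
    x ∈ (layerHom φ H N g).toFun.ker ↔ toUnit x.1 ∈ sUnits L (primesOverNat L T) := by
  rw [← mem_ESsub_iff_mem_sUnits, toUnit_eq, ← hφ x.1, AddMonoidHom.mem_ker]
  constructor
  · intro h
    exact congrArg Subtype.val h
  · intro h
    exact Subtype.ext h

include hφ in
theorem ker_mem_sUnits (x : (layerHom φ H N g).toFun.ker) :
    toUnit x.1.1 ∈ sUnits L (primesOverNat L T) :=
  (mem_ker_iff φ hφ H N g x.1).1 x.2

/-- composition of isomorphisms of pairs -/
def isoTrans {A B C : Type*} [AddCommGroup A] [AddCommGroup B] [AddCommGroup C] {P : Pair A}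
    {Q : Pair B} {R : Pair C} (I : Pair.Iso P Q) (J : Pair.Iso Q R) : Pair.Iso P R where
  e := I.e.trans J.e
  comm_f x := by
    change J.e (I.e (P.f x)) = R.f (J.e (I.e x))
    rw [I.comm_f, J.comm_f]
  comm_g x := by
    change J.e (I.e (P.g x)) = R.g (J.e (I.e x))
    rw [I.comm_g, J.comm_g]

/-- the kernel is stable under the action -/
theorem ker_stable (τ : H ⧸ N) (x : (layer (Lx L) H N).V)
    (hx : x ∈ (layerHom φ H N g).toFun.ker) :
    repRhoM (layer (Lx L) H N) τ x ∈ (layerHom φ H N g).toFun.ker := by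
  rw [AddMonoidHom.mem_ker] at hx ⊢
  have h1 : (layerHom φ H N g).toFun (repRhoM (layer (Lx L) H N) τ x) =
      repRhoM (layer B H N) τ ((layerHom φ H N g).toFun x) :=
    Rep.hom_comm_apply (layerRepHom φ H N) τ x
  rw [h1, hx, map_zero]

/-- the action of `H ⧸ N` on the kernel -/
noncomputable def rhoKer : H ⧸ N →* AddMonoid.End (layerHom φ H N g).toFun.ker :=
  rhoRestrict (repRhoM (layer (Lx L) H N)) _ (ker_stable φ H N g)

/-- the `T`-unit of an element of the kernel, as an `N`-invariant -/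
noncomputable def kerToInv (x : (layerHom φ H N g).toFun.ker) :
    invSub (rhoL (L := ↥L) (H := ↥H) T) N :=
  ⟨Additive.ofMul ⟨toUnit x.1.1, ker_mem_sUnits φ hφ H N g x⟩, by
    intro n hn
    apply congrArg Additive.ofMul
    apply Subtype.ext
    apply Units.ext
    have h1 := layer_fixed H N x.1 ⟨n, hn⟩
    have h2 := congrArg (fun y => ((toUnit y : Lˣ) : L)) h1
    exact h2⟩

theorem coe_kerToInv (x : (layerHom φ H N g).toFun.ker) :
    ((Additive.toMul (kerToInv φ hφ H N g x : Additive ↥(sUnits ↥L (primesOverNat ↥L T))) :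
      ↥(sUnits ↥L (primesOverNat ↥L T))) : Lˣ) = toUnit x.1.1 := rfl

/-- the additive map from the kernel to the `N`-invariant `T`-units -/
noncomputable def kerToInvHom : (layerHom φ H N g).toFun.ker →+
    invSub (rhoL (L := ↥L) (H := ↥H) T) N where
  toFun := kerToInv φ hφ H N g
  map_zero' := by
    apply Subtype.ext
    rfl
  map_add' x y := by
    apply Subtype.ext
    rfl

theorem kerToInvHom_injective : Function.Injective (kerToInvHom φ hφ H N g) := by
  intro x y hxy
  have h1 : toUnit x.1.1 = toUnit y.1.1 := by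
    rw [← coe_kerToInv φ hφ H N g x, ← coe_kerToInv φ hφ H N g y]
    exact congrArg (fun z : invSub (rhoL (L := ↥L) (H := ↥H) T) N =>
      ((Additive.toMul (z : Additive ↥(sUnits ↥L (primesOverNat ↥L T))) :
        ↥(sUnits ↥L (primesOverNat ↥L T))) : Lˣ)) hxy
  apply Subtype.ext
  apply Subtype.ext
  exact h1

theorem kerToInvHom_surjective : Function.Surjective (kerToInvHom φ hφ H N g) := by
  intro u
  have hfix : ∀ n : N, (Lx L).ρ ((n : H) : GalL L)
      (ofUnit ((Additive.toMul (u : Additive ↥(sUnits ↥L (primesOverNat ↥L T))) :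
        ↥(sUnits ↥L (primesOverNat ↥L T))) : Lˣ)) =
      ofUnit ((Additive.toMul (u : Additive ↥(sUnits ↥L (primesOverNat ↥L T))) :
        ↥(sUnits ↥L (primesOverNat ↥L T))) : Lˣ) := by
    intro n
    have h1 := u.2 (n : H) n.2
    have h2 := congrArg (fun z : Additive ↥(sUnits ↥L (primesOverNat ↥L T)) =>
      ((Additive.toMul z : ↥(sUnits ↥L (primesOverNat ↥L T))) : Lˣ)) h1
    exact h2
  refine ⟨⟨layerMk H N _ hfix, ?_⟩, ?_⟩
  · rw [mem_ker_iff φ hφ]
    exact (Additive.toMul (u : Additive ↥(sUnits ↥L (primesOverNat ↥L T)))).2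
  · apply Subtype.ext
    rfl

/-- the kernel is the group of `N`-invariant `T`-units -/
noncomputable def kerEquiv : (layerHom φ H N g).toFun.ker ≃+
    invSub (rhoL (L := ↥L) (H := ↥H) T) N :=
  AddEquiv.ofBijective (kerToInvHom φ hφ H N g)
    ⟨kerToInvHom_injective φ hφ H N g, kerToInvHom_surjective φ hφ H N g⟩

theorem kerEquiv_apply (x : (layerHom φ H N g).toFun.ker) :
    kerEquiv φ hφ H N g x = kerToInv φ hφ H N g x := rfl

theorem sUnit_ext (a b : Additive ↥(sUnits ↥L (primesOverNat ↥L T)))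
    (hab : (((Additive.toMul a : ↥(sUnits ↥L (primesOverNat ↥L T))) : Lˣ) : L) =
      (((Additive.toMul b : ↥(sUnits ↥L (primesOverNat ↥L T))) : Lˣ) : L)) : a = b := by
  apply Additive.toMul.injective
  apply Subtype.ext
  apply Units.ext
  exact hab

theorem coe_rhoKer (h : H) (x : (layerHom φ H N g).toFun.ker) :
    ((toUnit (rhoKer φ H N g (QuotientGroup.mk h) x).1.1 : Lˣ) : L) =
      (h : GalL L) ((toUnit x.1.1 : Lˣ) : L) := rfl

theorem coe_rhoL (h : H) (a : Additive ↥(sUnits ↥L (primesOverNat ↥L T))) :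
    (((Additive.toMul (rhoL (L := ↥L) (H := ↥H) T h a) :
      ↥(sUnits ↥L (primesOverNat ↥L T))) : Lˣ) : L) =
      (h : GalL L) (((Additive.toMul a : ↥(sUnits ↥L (primesOverNat ↥L T))) : Lˣ) : L) := rfl

theorem kerEquiv_equivariant (τ : H ⧸ N) (x : (layerHom φ H N g).toFun.ker) :
    kerEquiv φ hφ H N g (rhoKer φ H N g τ x) =
      layerRho (rhoL (L := ↥L) (H := ↥H) T) N τ (kerEquiv φ hφ H N g x) := by
  refine QuotientGroup.induction_on τ (fun h => ?_)
  apply Subtype.ext
  refine Eq.trans ?_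
    (coe_layerRho_mk (rhoL (L := ↥L) (H := ↥H) T) N h (kerEquiv φ hφ H N g x)).symm
  apply sUnit_ext
  refine Eq.trans ?_ (coe_rhoL H h _).symm
  exact coe_rhoKer φ H N g h x

/-- **(L3), general form**: for any morphism `φ` out of `Lx L` whose kernel is the group of
`T`-units, the kernel of the layer map is, as a Herbrand pair, the `(H ⧸ N)`-module of
`N`-invariant `T`-units of `L`. -/
noncomputable def heIsoOf : Pair.Iso (kerPair (layerHom φ H N g))
    (cyclicPair (layerRho (rhoL (L := ↥L) (H := ↥H) T) N) g) :=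
  isoTrans
    (isoRestrict (repRhoM (layer (Lx L) H N)) g _ (ker_stable φ H N g)
      (f_mem_ker (layerHom φ H N g)) (g_mem_ker (layerHom φ H N g))).symm
    (isoOfEquivariant (rhoKer φ H N g) (layerRho (rhoL (L := ↥L) (H := ↥H) T) N) g
      (kerEquiv φ hφ H N g) (kerEquiv_equivariant φ hφ H N g))

/-- helper44's ideal map has kernel the `T`-units -/
theorem kerIsSUnits_idealMap (hT : UnrOutside L T) : KerIsSUnits (idealMap hT) T :=
  fun x => idealMap_eq_zero_iff hT x

/-- **(L3)** for helper44's ideal map -/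
noncomputable def heIso (hT : UnrOutside L T) :
    Pair.Iso (kerPair (layerHom (idealMap hT) H N g))
      (cyclicPair (layerRho (rhoL (L := ↥L) (H := ↥H) T) N) g) :=
  heIsoOf (idealMap hT) (kerIsSUnits_idealMap hT) H N g

end Fermat.Agent.S55.SUnit1.HEIso
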