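/-
S55 seam 31 → 33 (helper1): helper79's named arithmetic input `CS79.CofinalCS.IneqOut S p L₀ V₀`
(both inequalities at every Galois `S`-level `L ⊇ L₀`) is reduced to the SECOND inequality alone,
the first one being `SUnit1.FirstOutFinal.firstIneqOut_CS` (unconditional for odd `p`).  The
consumer statements of `CS79.CofinalCS` are restated with this single input.
-/
import Mathlib
import Fermat.Agent.S55.SUnit1.FirstOutFinal
import Fermat.Agent.S55.CS79.CofinalCS

set_option autoImplicit false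

namespace Fermat.Agent.S55.SUnit1.IneqOutFirst

open Fermat.Agent.S55.Profin15 Fermat.Agent.S55.Idele73.Basic
open Fermat.Agent.S55.Adapt77.HcycGlue Fermat.Agent.S55.CS79.CofinalCS
open Fermat.Agent.S55.CD3 Fermat.Agent.S55.CS79.Primary

variable {S : Finset Nat.Primes} {p : ℕ}

/-- the second inequality at every Galois `S`-level above `L₀`, below some `H₀ ⊇ π_L(V₀)` -/
def SecondOut (S : Finset Nat.Primes) (p : ℕ) (L₀ : IntermediateField ℚ Qbar)
    (V₀ : Subgroup GQ) : Prop :=
  ∀ (L : IntermediateField ℚ Qbar) [Normal ℚ L], L.IsUnramifiedOutside S → L₀ ≤ L →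
    ∀ h : Fermat.Agent.S55.IdeleVal44.UnrOutside L S,
      ∃ H₀ : Subgroup (GalL L), V₀.map (resL L) ≤ H₀ ∧
        SecondIneqOut (Fermat.Agent.S55.IdeleVal44.CS h) H₀ p

/-- **`IneqOut` from the second inequality alone** (`p` odd, `S` nonempty) -/
theorem ineqOut_of_second (hS : S.Nonempty) (hp : Odd p) {L₀ : IntermediateField ℚ Qbar}
    {V₀ : Subgroup GQ} (h32 : SecondOut S p L₀ V₀) : IneqOut S p L₀ V₀ := by
  intro L _ hL hle h
  haveI : FiniteDimensional ℚ L := hL.1
  exact ⟨Fermat.Agent.S55.SUnit1.FirstOutFinal.firstIneqOut_CS h hS p hp, h32 L hL hle h⟩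

variable [Fact p.Prime]

/-- **(F1)(p) for `C_S` over every open subgroup `V ≤ V₀`**, from the second inequality alone -/
theorem h1PrimaryVanishes_CS_res_of_second (hS : S.Nonempty) (hp : Odd p)
    {L₀ : IntermediateField ℚ Qbar} (hL₀ : L₀.IsUnramifiedOutside S) {V₀ : Subgroup GQ}
    (h32 : SecondOut S p L₀ V₀) (V : Subgroup GQ) (hV : IsOpenSub (globalLevels S) V)
    (hVV₀ : V ≤ V₀) :
    H1PrimaryVanishes (restrictLevels (globalLevels S) V hV) p (Rep.res V.subtype (CS S)) :=
  h1PrimaryVanishes_CS_res hS hL₀ (ineqOut_of_second hS hp h32) V hV hVV₀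

/-- the same in helper41's shape `S1Limit41.H1Cofinal.FiniteLevelH1` -/
theorem finiteLevelH1_CS_of_second (hS : S.Nonempty) (hp : Odd p)
    {L₀ : IntermediateField ℚ Qbar} (hL₀ : L₀.IsUnramifiedOutside S) {V₀ : Subgroup GQ}
    (h32 : SecondOut S p L₀ V₀) (V : Subgroup GQ) (hVV₀ : V ≤ V₀) :
    Fermat.Agent.S55.S1Limit41.H1Cofinal.FiniteLevelH1 (globalLevels S) p (CS S) V :=
  finiteLevelH1_CS hS hL₀ (ineqOut_of_second hS hp h32) V hVV₀

end Fermat.Agent.S55.SUnit1.IneqOutFirst
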