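/-
S55 leaf 16-SUNIT (helper1), part (O): the Herbrand quotient of a permutation module `ℤ[X]` of a
finite cyclic group `G` on an arbitrary finite `G`-set `X`: decomposition into orbits,
`q(ℤ[X]) = ∏_{orbits} |Stab|`.  Mathlib + Herbrand54 + HerbrandCyclic54 only.
-/
import Mathlib
import Fermat.Agent.S55.Herbrand54
import Fermat.Agent.S55.HerbrandCyclic54

set_option autoImplicit false

namespace Fermat.Agent.S55.SUnit1.PermOrbits

open Fermat.Agent.S55.Herbrand54 Fermat.Agent.S55.HerbrandCyclic54 MulAction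

variable {G : Type*} [Group G] {X : Type*} [MulAction G X] (M : Type*) [AddCommGroup M]

/-- restriction of functions to the orbits -/
def orbitsEquiv : (X → M) ≃+ (∀ ω : orbitRel.Quotient G X, (ω.orbit → M)) where
  toFun φ ω y := φ y.1
  invFun ψ x := ψ (Quotient.mk'' x) ⟨x, orbitRel.Quotient.mem_orbit.2 rfl⟩
  left_inv φ := rfl
  right_inv ψ := by
    funext ω y
    obtain ⟨y, hy⟩ := y
    have h : (Quotient.mk'' y : orbitRel.Quotient G X) = ω := orbitRel.Quotient.mem_orbit.1 hy
    subst h
    rfl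
  map_add' := fun _ _ => rfl

theorem orbitsEquiv_apply (φ : X → M) (ω : orbitRel.Quotient G X) (y : ω.orbit) :
    orbitsEquiv (G := G) M φ ω y = φ y.1 := rfl

theorem stabilizer_orbit_eq (ω : orbitRel.Quotient G X) (y : ω.orbit) :
    stabilizer G y = stabilizer G (y : X) := by
  ext σ
  rw [mem_stabilizer_iff, mem_stabilizer_iff, Subtype.ext_iff]
  rfl

variable [Fintype G]

/-- the permutation module is the product of the permutation modules of the orbits -/
def permIso (g₀ : G) :
    Pair.Iso (cyclicPair (permRho G X M) g₀)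
      (Pair.pi fun ω : orbitRel.Quotient G X => cyclicPair (permRho G ω.orbit M) g₀) where
  e := orbitsEquiv M
  comm_f φ := by
    funext ω y
    rfl
  comm_g φ := by
    funext ω y
    rw [Pair.pi_g_apply, cyclicPair_g_apply, cyclicPair_g_apply, orbitsEquiv_apply,
      normHom_permRho_apply, normHom_permRho_apply]
    rfl

variable [Finite X] {g₀ : G} (hg : ∀ τ : G, τ ∈ Subgroup.zpowers g₀)

include hg

theorem isDefined_perm : (cyclicPair (permRho G X ℤ) g₀).IsDefined := by
  classical
  rw [(permIso ℤ g₀).isDefined_iff]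
  apply Pair.isDefined_pi
  intro ω
  have : Fintype ω.orbit := Fintype.ofFinite _
  obtain ⟨x, rfl⟩ := Quotient.exists_rep ω
  exact isDefined_perm_transitive hg ⟨x, orbitRel.Quotient.mem_orbit.2 rfl⟩

/-- `q(ℤ[X]) = ∏_{orbits} |Stab|` -/
theorem q_perm [Fintype (orbitRel.Quotient G X)] (r : orbitRel.Quotient G X → X)
    (hr : ∀ ω, Quotient.mk'' (r ω) = ω) :
    (cyclicPair (permRho G X ℤ) g₀).q = ∏ ω, (Nat.card (stabilizer G (r ω)) : ℚ) := by
  classical
  rw [(permIso ℤ g₀).q_eq, Pair.q_pi]
  refine Finset.prod_congr rfl fun ω _ => ?_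
  have : Fintype ω.orbit := Fintype.ofFinite _
  rw [q_perm_transitive hg ⟨r ω, orbitRel.Quotient.mem_orbit.2 (hr ω)⟩, stabilizer_orbit_eq]

end Fermat.Agent.S55.SUnit1.PermOrbits
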