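/-
S55 / 16-SUNIT (helper1): a finite group `G` acting on a number field `L` by field automorphisms
acts on the infinite places, on the units of `𝓞 L` and on the finite places (height one primes of
`𝓞 L`).  Plain definitions (no new global instances) + the compatibility lemmas used later.
-/
import Mathlib

set_option autoImplicit false
set_option linter.unusedSectionVars false

namespace Fermat.Agent.S55.SUnit1.Places

open NumberField IsDedekindDomain WithZero

variable {L : Type*} [Field L] [NumberField L] {G : Type*} [Group G] [MulSemiringAction G L]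

/-! ### infinite places -/

/-- the action on infinite places: `(σ w)(x) = w (σ⁻¹ x)` -/
noncomputable def infSmul (σ : G) (w : InfinitePlace L) : InfinitePlace L :=
  w.comap (MulSemiringAction.toRingHom G L σ⁻¹)

@[simp]
theorem infSmul_apply (σ : G) (w : InfinitePlace L) (x : L) : infSmul σ w x = w (σ⁻¹ • x) := rfl

@[simp]
theorem infSmul_one (w : InfinitePlace L) : infSmul (1 : G) w = w := by
  apply InfinitePlace.ext
  intro x
  simp

theorem infSmul_mul (σ τ : G) (w : InfinitePlace L) :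
    infSmul (σ * τ) w = infSmul σ (infSmul τ w) := by
  apply InfinitePlace.ext
  intro x
  simp [mul_smul]

@[simp]
theorem infSmul_inv_smul (σ : G) (w : InfinitePlace L) : infSmul σ⁻¹ (infSmul σ w) = w := by
  rw [← infSmul_mul, inv_mul_cancel, infSmul_one]

@[simp]
theorem infSmul_smul_inv (σ : G) (w : InfinitePlace L) : infSmul σ (infSmul σ⁻¹ w) = w := by
  rw [← infSmul_mul, mul_inv_cancel, infSmul_one]

theorem infSmul_injective (σ : G) : Function.Injective (infSmul (L := L) σ) := by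
  intro w w' h
  have := congrArg (infSmul σ⁻¹) h
  simpa using this

/-- the permutation of the infinite places induced by `σ` -/
noncomputable def infPerm (σ : G) : Equiv.Perm (InfinitePlace L) where
  toFun := infSmul σ
  invFun := infSmul σ⁻¹
  left_inv := infSmul_inv_smul σ
  right_inv := infSmul_smul_inv σ

/-! ### units -/

/-- coercion `𝓞 L → L` commutes with the action -/
theorem coe_smul (σ : G) (x : 𝓞 L) : ((σ • x : 𝓞 L) : L) = σ • (x : L) := by
  have h := smul_distrib_smul σ x (1 : L)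
  rw [smul_one] at h
  simpa [Algebra.smul_def] using h.symm

/-- the action on units -/
noncomputable def unitSmul (σ : G) : (𝓞 L)ˣ ≃* (𝓞 L)ˣ :=
  Units.mapEquiv (MulSemiringAction.toRingEquiv G (𝓞 L) σ).toMulEquiv

@[simp]
theorem coe_unitSmul (σ : G) (u : (𝓞 L)ˣ) : ((unitSmul σ u : (𝓞 L)ˣ) : 𝓞 L) = σ • (u : 𝓞 L) := rfl

theorem coe_coe_unitSmul (σ : G) (u : (𝓞 L)ˣ) :
    (((unitSmul σ u : (𝓞 L)ˣ) : 𝓞 L) : L) = σ • ((u : 𝓞 L) : L) := by
  rw [coe_unitSmul, coe_smul]

@[simp]
theorem unitSmul_one (u : (𝓞 L)ˣ) : unitSmul (1 : G) u = u := by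
  ext
  simp

theorem unitSmul_mul (σ τ : G) (u : (𝓞 L)ˣ) : unitSmul (σ * τ) u = unitSmul σ (unitSmul τ u) := by
  ext
  simp [mul_smul]

/-- `w (σ u) = (σ⁻¹ w) u` -/
theorem place_unitSmul (σ : G) (w : InfinitePlace L) (u : (𝓞 L)ˣ) :
    w (((unitSmul σ u : (𝓞 L)ˣ) : 𝓞 L) : L) = infSmul σ⁻¹ w ((u : 𝓞 L) : L) := by
  rw [coe_coe_unitSmul, infSmul_apply, inv_inv]

/-! ### finite places -/

/-- the action on height one primes: `x ∈ σ P ↔ σ⁻¹ x ∈ P` -/
noncomputable def primeSmul (σ : G) (P : HeightOneSpectrum (𝓞 L)) : HeightOneSpectrum (𝓞 L) where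
  asIdeal := P.asIdeal.comap (MulSemiringAction.toRingHom G (𝓞 L) σ⁻¹)
  isPrime := Ideal.IsPrime.comap _
  ne_bot := by
    intro h
    apply P.ne_bot
    rw [eq_bot_iff]
    intro x hx
    have : σ • x ∈ P.asIdeal.comap (MulSemiringAction.toRingHom G (𝓞 L) σ⁻¹) := by
      rw [Ideal.mem_comap]
      simpa using hx
    rw [h, Ideal.mem_bot] at this
    rw [Ideal.mem_bot]
    have h2 := congrArg (fun y => σ⁻¹ • y) this
    simpa using h2

theorem mem_primeSmul (σ : G) (P : HeightOneSpectrum (𝓞 L)) (x : 𝓞 L) :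
    x ∈ (primeSmul σ P).asIdeal ↔ σ⁻¹ • x ∈ P.asIdeal := Iff.rfl

@[simp]
theorem primeSmul_one (P : HeightOneSpectrum (𝓞 L)) : primeSmul (1 : G) P = P := by
  ext x
  simp [mem_primeSmul]

theorem primeSmul_mul (σ τ : G) (P : HeightOneSpectrum (𝓞 L)) :
    primeSmul (σ * τ) P = primeSmul σ (primeSmul τ P) := by
  ext x
  simp [mem_primeSmul, mul_smul]

@[simp]
theorem primeSmul_inv_smul (σ : G) (P : HeightOneSpectrum (𝓞 L)) :
    primeSmul σ⁻¹ (primeSmul σ P) = P := by
  rw [← primeSmul_mul, inv_mul_cancel, primeSmul_one]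

@[simp]
theorem primeSmul_smul_inv (σ : G) (P : HeightOneSpectrum (𝓞 L)) :
    primeSmul σ (primeSmul σ⁻¹ P) = P := by
  rw [← primeSmul_mul, mul_inv_cancel, primeSmul_one]

/-- powers of `σ P` -/
theorem mem_primeSmul_pow (σ : G) (P : HeightOneSpectrum (𝓞 L)) (n : ℕ) (x : 𝓞 L) :
    σ • x ∈ (primeSmul σ P).asIdeal ^ n ↔ x ∈ P.asIdeal ^ n := by
  set e : 𝓞 L ≃+* 𝓞 L := MulSemiringAction.toRingEquiv G (𝓞 L) σ with he
  have h1 : (primeSmul σ P).asIdeal = Ideal.map e P.asIdeal := by
    ext y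
    rw [Ideal.mem_map_of_equiv, mem_primeSmul]
    constructor
    · intro h
      exact ⟨σ⁻¹ • y, h, by simp [he]⟩
    · rintro ⟨z, hz, rfl⟩
      simpa [he] using hz
  rw [h1, ← Ideal.map_pow, Ideal.mem_map_of_equiv]
  constructor
  · rintro ⟨z, hz, hzx⟩
    have : z = x := by
      have := congrArg (fun y => σ⁻¹ • y) hzx
      simpa [he] using this
    exact this ▸ hz
  · intro h
    exact ⟨x, h, by simp [he]⟩

private theorem eq_of_forall_le_exp_iff {x y : ℤᵐ⁰} (hx : x ≠ 0) (hy : y ≠ 0) (hx1 : x ≤ 1)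
    (hy1 : y ≤ 1) (h : ∀ n : ℕ, x ≤ exp (-(n : ℤ)) ↔ y ≤ exp (-(n : ℤ))) : x = y := by
  have hxl : x.log ≤ 0 := by
    have := (log_le_log hx one_ne_zero).2 hx1
    simpa using this
  have hyl : y.log ≤ 0 := by
    have := (log_le_log hy one_ne_zero).2 hy1
    simpa using this
  have key : ∀ {a b : ℤᵐ⁰}, a ≠ 0 → b ≠ 0 → a.log ≤ 0 →
      (∀ n : ℕ, a ≤ exp (-(n : ℤ)) ↔ b ≤ exp (-(n : ℤ))) → b.log ≤ a.log := by
    intro a b ha hb hal hab
    have h1 : a ≤ exp (-(((-a.log).toNat : ℕ) : ℤ)) := by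
      rw [Int.toNat_of_nonneg (by omega), neg_neg, exp_log ha]
    have h2 := (hab _).1 h1
    rw [Int.toNat_of_nonneg (by omega), neg_neg] at h2
    have := (log_le_log hb (by simp)).2 h2
    simpa using this
  have h1 := key hx hy hxl h
  have h2 := key hy hx hyl (fun n => (h n).symm)
  have : x.log = y.log := le_antisymm h2 h1
  rw [← exp_log hx, ← exp_log hy, this]

/-- equivariance of the integral valuation -/
theorem intValuation_primeSmul (σ : G) (P : HeightOneSpectrum (𝓞 L)) (x : 𝓞 L) :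
    (primeSmul σ P).intValuation (σ • x) = P.intValuation x := by
  by_cases hx : x = 0
  · simp [hx]
  · have hσx : σ • x ≠ 0 := by
      intro h
      apply hx
      have := congrArg (fun y => σ⁻¹ • y) h
      simpa using this
    apply eq_of_forall_le_exp_iff ((primeSmul σ P).intValuation_ne_zero _ hσx)
      (P.intValuation_ne_zero _ hx) ((primeSmul σ P).intValuation_le_one _)
      (P.intValuation_le_one _)
    intro n
    rw [HeightOneSpectrum.intValuation_le_pow_iff_mem, HeightOneSpectrum.intValuation_le_pow_iff_mem,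
      mem_primeSmul_pow]

/-- equivariance of the valuation on `L` -/
theorem valuation_primeSmul (σ : G) (P : HeightOneSpectrum (𝓞 L)) (x : L) :
    (primeSmul σ P).valuation L (σ • x) = P.valuation L x := by
  obtain ⟨a, b, hb, rfl⟩ := IsFractionRing.div_surjective (A := 𝓞 L) x
  have hb0 : (algebraMap (𝓞 L) L b) ≠ 0 := by
    intro h
    have : b = 0 := (FaithfulSMul.algebraMap_injective (𝓞 L) L) (by simpa using h)
    exact (nonZeroDivisors.ne_zero hb) this
  have hdiv : σ • (algebraMap (𝓞 L) L a / algebraMap (𝓞 L) L b) =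
      (σ • algebraMap (𝓞 L) L a) / (σ • algebraMap (𝓞 L) L b) :=
    map_div₀ (MulSemiringAction.toRingHom G L σ) _ _
  rw [hdiv, map_div₀, map_div₀]
  have h1 : σ • (algebraMap (𝓞 L) L a) = algebraMap (𝓞 L) L (σ • a) := (coe_smul σ a).symm
  have h2 : σ • (algebraMap (𝓞 L) L b) = algebraMap (𝓞 L) L (σ • b) := (coe_smul σ b).symm
  rw [h1, h2, HeightOneSpectrum.valuation_of_algebraMap, HeightOneSpectrum.valuation_of_algebraMap,
    HeightOneSpectrum.valuation_of_algebraMap, HeightOneSpectrum.valuation_of_algebraMap,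
    intValuation_primeSmul, intValuation_primeSmul]

theorem valuation_primeSmul' (σ : G) (P : HeightOneSpectrum (𝓞 L)) (x : L) :
    (primeSmul σ P).valuation L x = P.valuation L (σ⁻¹ • x) := by
  have := valuation_primeSmul σ P (σ⁻¹ • x)
  simpa using this

end Fermat.Agent.S55.SUnit1.Places
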