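/-
S55 / 16-SUNIT (helper1): sign-pattern matrices.

`a : ι → ι → ℝ` with negative off-diagonal entries and zero row sums (think
`a w w' = log ‖η_w‖_{w'}` for units `η_w` which are small at every place `w' ≠ w`).
Every nonzero left-kernel vector `d` (`∑ i, d i * a i j = 0` for all `j`) has all its entries of the
same strict sign.  Consequently two kernel vectors are proportional.
-/
import Mathlib

set_option autoImplicit false

namespace Fermat.Agent.S55.SUnit1.SignMatrix

open Finset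

variable {ι : Type*} [Fintype ι]

/-- the hypotheses on the matrix -/
structure IsSignPattern (a : ι → ι → ℝ) : Prop where
  neg : ∀ i j, i ≠ j → a i j < 0
  row_sum : ∀ i, ∑ j, a i j = 0

/-- `d` is a left-kernel vector -/
def IsKer (a : ι → ι → ℝ) (d : ι → ℝ) : Prop := ∀ j, ∑ i, d i * a i j = 0

theorem IsKer.neg {a : ι → ι → ℝ} {d : ι → ℝ} (h : IsKer a d) : IsKer a (-d) := by
  intro j
  have := h j
  simp only [Pi.neg_apply, neg_mul, sum_neg_distrib, this, neg_zero]

theorem IsKer.sub {a : ι → ι → ℝ} {d d' : ι → ℝ} (h : IsKer a d) (h' : IsKer a d') :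
    IsKer a (d - d') := by
  intro j
  simp only [Pi.sub_apply, sub_mul, sum_sub_distrib, h j, h' j, sub_zero]

theorem IsKer.smul {a : ι → ι → ℝ} {d : ι → ℝ} (h : IsKer a d) (t : ℝ) : IsKer a (t • d) := by
  intro j
  simp only [Pi.smul_apply, smul_eq_mul, mul_assoc, ← mul_sum, h j, mul_zero]

theorem pos_of_exists_pos {a : ι → ι → ℝ} (ha : IsSignPattern a) {d : ι → ℝ} (hd : IsKer a d)
    (hex : ∃ i, 0 < d i) : ∀ i, 0 < d i := by
  classical
  by_contra hne
  push Not at hne
  obtain ⟨i₀, hi₀⟩ := hex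
  obtain ⟨i₁, hi₁⟩ := hne
  set P : Finset ι := univ.filter (fun i => 0 < d i) with hP
  have hmemP : ∀ i, i ∈ P ↔ 0 < d i := fun i => by simp [hP]
  have hsum : ∑ i, d i * (∑ j ∈ P, a i j) = 0 := by
    calc ∑ i, d i * (∑ j ∈ P, a i j) = ∑ j ∈ P, ∑ i, d i * a i j := by
          simp_rw [mul_sum]; rw [sum_comm]
      _ = 0 := sum_eq_zero (fun j _ => hd j)
  have hsplit : ∀ i, ∑ j ∈ P, a i j = - ∑ j ∈ Pᶜ, a i j := by
    intro i
    have := ha.row_sum i
    rw [← sum_add_sum_compl P] at this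
    linarith
  have hterm : ∀ i, 0 ≤ d i * (∑ j ∈ P, a i j) := by
    intro i
    by_cases hi : i ∈ P
    · have hdi : 0 < d i := (hmemP i).1 hi
      rw [hsplit i]
      have : ∑ j ∈ Pᶜ, a i j ≤ 0 := by
        apply sum_nonpos
        intro j hj
        have hj' : j ∉ P := by simpa using hj
        have hij : i ≠ j := fun h => hj' (h ▸ hi)
        exact (ha.neg i j hij).le
      nlinarith
    · have hdi : d i ≤ 0 := by
        by_contra h
        exact hi ((hmemP i).2 (not_le.1 h))
      have : ∑ j ∈ P, a i j ≤ 0 := by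
        apply sum_nonpos
        intro j hj
        have hij : i ≠ j := fun h => hi (h ▸ hj)
        exact (ha.neg i j hij).le
      nlinarith
  have hpos : 0 < d i₀ * (∑ j ∈ P, a i₀ j) := by
    have hi₀P : i₀ ∈ P := (hmemP i₀).2 hi₀
    have hi₁P : i₁ ∉ P := fun h => absurd ((hmemP i₁).1 h) (not_lt.2 hi₁)
    rw [hsplit i₀]
    have : ∑ j ∈ Pᶜ, a i₀ j < 0 := by
      apply sum_neg'
      · intro j hj
        have hj' : j ∉ P := by simpa using hj
        have hij : i₀ ≠ j := fun h => hj' (h ▸ hi₀P)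
        exact (ha.neg i₀ j hij).le
      · refine ⟨i₁, by simpa using hi₁P, ?_⟩
        have hij : i₀ ≠ i₁ := fun h => hi₁P (h ▸ hi₀P)
        exact ha.neg i₀ i₁ hij
    nlinarith
  have := sum_pos' (fun i _ => hterm i) ⟨i₀, mem_univ _, hpos⟩
  linarith

theorem neg_of_exists_neg {a : ι → ι → ℝ} (ha : IsSignPattern a) {d : ι → ℝ} (hd : IsKer a d)
    (hex : ∃ i, d i < 0) : ∀ i, d i < 0 := by
  obtain ⟨i, hi⟩ := hex
  have := pos_of_exists_pos ha hd.neg ⟨i, by simpa using hi⟩
  intro j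
  simpa using this j

/-- trichotomy -/
theorem eq_zero_or_pos_or_neg {a : ι → ι → ℝ} (ha : IsSignPattern a) {d : ι → ℝ} (hd : IsKer a d) :
    d = 0 ∨ (∀ i, 0 < d i) ∨ (∀ i, d i < 0) := by
  by_cases h1 : ∃ i, 0 < d i
  · exact Or.inr (Or.inl (pos_of_exists_pos ha hd h1))
  · by_cases h2 : ∃ i, d i < 0
    · exact Or.inr (Or.inr (neg_of_exists_neg ha hd h2))
    · left
      push Not at h1 h2
      funext i
      exact le_antisymm (h1 i) (h2 i)

/-- a kernel vector with a zero entry is zero -/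
theorem eq_zero_of_apply_eq_zero {a : ι → ι → ℝ} (ha : IsSignPattern a) {d : ι → ℝ}
    (hd : IsKer a d) {i : ι} (hi : d i = 0) : d = 0 := by
  rcases eq_zero_or_pos_or_neg ha hd with h | h | h
  · exact h
  · exact absurd hi (h i).ne'
  · exact absurd hi (h i).ne

/-- two kernel vectors are proportional -/
theorem exists_smul_eq {a : ι → ι → ℝ} (ha : IsSignPattern a) {d d' : ι → ℝ}
    (hd : IsKer a d) (hd' : IsKer a d') (hne : d ≠ 0) : ∃ t : ℝ, d' = t • d := by
  have hall : ∀ i, d i ≠ 0 := by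
    intro i hi
    exact hne (eq_zero_of_apply_eq_zero ha hd hi)
  by_cases hemp : IsEmpty ι
  · exact ⟨0, by funext i; exact (hemp.false i).elim⟩
  · rw [not_isEmpty_iff] at hemp
    obtain ⟨i₀⟩ := hemp
    refine ⟨d' i₀ / d i₀, ?_⟩
    have hk : IsKer a (d' - (d' i₀ / d i₀) • d) := hd'.sub (hd.smul _)
    have h0 : (d' - (d' i₀ / d i₀) • d) i₀ = 0 := by
      simp only [Pi.sub_apply, Pi.smul_apply, smul_eq_mul]
      field_simp [hall i₀]
      ring
    have := eq_zero_of_apply_eq_zero ha hk h0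
    exact sub_eq_zero.1 this

end Fermat.Agent.S55.SUnit1.SignMatrix
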