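/-
S55 / 16-SUNIT (helper1): the unit case.  For a finite group `G` acting on a number field `L`:
an equivariant family of "signed" units `u_w` (`w` an infinite place; `‖u_w‖_{w'} < 1` for
`w' ≠ w`), the induced equivariant map `ℤ[places at ∞] → 𝓞_L^×`, its kernel `ℤ·c` with `c > 0`
(`G`-invariant) and the finiteness of its cokernel.
-/
import Fermat.Agent.S55.SUnit1.SignMatrix
import Fermat.Agent.S55.SUnit1.Places

set_option autoImplicit false
set_option linter.unusedSectionVars false

namespace Fermat.Agent.S55.SUnit1.Units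

open NumberField Fermat.Agent.S55.SUnit1.Places Fermat.Agent.S55.SUnit1.SignMatrix

variable {L : Type*} [Field L] [NumberField L]

/-- the (normalised) logarithm of the absolute value at `w`, as an additive map on units -/
noncomputable def logAt (w : InfinitePlace L) : Additive (𝓞 L)ˣ →+ ℝ where
  toFun x := (w.mult : ℝ) * Real.log (w (((Additive.toMul x : (𝓞 L)ˣ) : 𝓞 L) : L))
  map_zero' := by simp
  map_add' x y := by
    have hx := (Units.pos_at_place (Additive.toMul x) w).ne'
    have hy := (Units.pos_at_place (Additive.toMul y) w).ne'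
    simp only [toMul_add, Units.val_mul, map_mul]
    rw [Real.log_mul hx hy, mul_add]

theorem logAt_ofMul (w : InfinitePlace L) (u : (𝓞 L)ˣ) :
    logAt w (Additive.ofMul u) = (w.mult : ℝ) * Real.log (w ((u : 𝓞 L) : L)) := rfl

/-- product formula -/
theorem sum_logAt (x : Additive (𝓞 L)ˣ) : ∑ w : InfinitePlace L, logAt w x = 0 :=
  Units.sum_mult_mul_log (Additive.toMul x)

/-- the units of Mathlib's proof of the unit theorem -/
noncomputable def eps (w : InfinitePlace L) : (𝓞 L)ˣ :=
  (Units.dirichletUnitTheorem.exists_unit L w).choose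

theorem eps_spec (w w' : InfinitePlace L) (h : w' ≠ w) :
    Real.log (w' (((eps w : (𝓞 L)ˣ) : 𝓞 L) : L)) < 0 :=
  (Units.dirichletUnitTheorem.exists_unit L w).choose_spec w' h

variable (G : Type*) [Group G] [Fintype G] [MulSemiringAction G L]

/-- the equivariant family of signed units -/
noncomputable def signedUnit (w : InfinitePlace L) : (𝓞 L)ˣ :=
  ∏ σ : G, unitSmul σ (eps (infSmul σ⁻¹ w))

theorem signedUnit_smul (τ : G) (w : InfinitePlace L) :
    signedUnit G (infSmul τ w) = unitSmul τ (signedUnit G w) := by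
  unfold signedUnit
  rw [map_prod]
  symm
  apply Fintype.prod_equiv (Equiv.mulLeft τ)
  intro σ
  simp only [Equiv.coe_mulLeft]
  rw [unitSmul_mul, mul_inv_rev, infSmul_mul, infSmul_inv_smul]

theorem log_signedUnit_neg (w w' : InfinitePlace L) (h : w' ≠ w) :
    Real.log (w' (((signedUnit G w : (𝓞 L)ˣ) : 𝓞 L) : L)) < 0 := by
  unfold signedUnit
  rw [Units.coe_prod]
  have hcoe : ((∏ σ : G, ((unitSmul σ (eps (infSmul σ⁻¹ w)) : (𝓞 L)ˣ) : 𝓞 L) : 𝓞 L) : L) =
      ∏ σ : G, (((unitSmul σ (eps (infSmul σ⁻¹ w)) : (𝓞 L)ˣ) : 𝓞 L) : L) :=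
    map_prod (algebraMap (𝓞 L) L) _ _
  rw [hcoe, map_prod, Real.log_prod]
  · apply Finset.sum_neg
    · intro σ _
      rw [place_unitSmul]
      apply eps_spec
      intro h'
      exact h (infSmul_injective _ h')
    · exact Finset.univ_nonempty
  · intro σ _
    exact (Units.pos_at_place _ _).ne'

/-- the matrix `a w w' = mult w' * log ‖u_w‖_{w'}` -/
noncomputable def signMat (w w' : InfinitePlace L) : ℝ :=
  logAt w' (Additive.ofMul (signedUnit G w))

theorem isSignPattern_signMat : IsSignPattern (signMat (L := L) G) where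
  neg w w' h := by
    unfold signMat
    rw [logAt_ofMul]
    have h1 := log_signedUnit_neg G w w' (Ne.symm h)
    have h2 : (0 : ℝ) < (w'.mult : ℝ) := by exact_mod_cast InfinitePlace.mult_pos
    nlinarith
  row_sum w := sum_logAt _

/-- the map `ℤ[places at ∞] → 𝓞_L^×` -/
noncomputable def unitHom : (InfinitePlace L → ℤ) →ₗ[ℤ] Additive (𝓞 L)ˣ :=
  Fintype.linearCombination ℤ (fun w => Additive.ofMul (signedUnit G w))

theorem unitHom_apply (f : InfinitePlace L → ℤ) :
    unitHom G f = ∑ w, f w • Additive.ofMul (signedUnit G w) :=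
  Fintype.linearCombination_apply ℤ _ f

/-- the permutation action on functions on places -/
noncomputable def permFun (σ : G) (f : InfinitePlace L → ℤ) : InfinitePlace L → ℤ :=
  fun w => f (infSmul σ⁻¹ w)

/-- the action on units, additively -/
noncomputable def addUnitSmul (σ : G) : Additive (𝓞 L)ˣ →+ Additive (𝓞 L)ˣ :=
  MonoidHom.toAdditive (unitSmul σ).toMonoidHom

theorem addUnitSmul_ofMul (σ : G) (u : (𝓞 L)ˣ) :
    addUnitSmul G σ (Additive.ofMul u) = Additive.ofMul (unitSmul σ u) := rfl

/-- equivariance of `unitHom` -/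
theorem unitHom_permFun (σ : G) (f : InfinitePlace L → ℤ) :
    unitHom G (permFun G σ f) = addUnitSmul G σ (unitHom G f) := by
  rw [unitHom_apply, unitHom_apply, map_sum]
  symm
  apply Fintype.sum_equiv (infPerm σ)
  intro w
  simp only [permFun, infPerm, Equiv.coe_fn_mk, infSmul_inv_smul]
  rw [map_zsmul, addUnitSmul_ofMul, signedUnit_smul]

/-- a kernel element gives a left kernel vector of the sign matrix -/
theorem isKer_of_mem_ker {f : InfinitePlace L → ℤ} (hf : unitHom G f = 0) :
    IsKer (signMat (L := L) G) (fun w => (f w : ℝ)) := by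
  intro w'
  have h := congrArg (logAt w') hf
  rw [unitHom_apply, map_sum, map_zero] at h
  rw [← h]
  apply Finset.sum_congr rfl
  intro w _
  rw [map_zsmul, signMat, zsmul_eq_mul]


/-- sign trichotomy for kernel elements -/
theorem ker_trichotomy {f : InfinitePlace L → ℤ} (hf : unitHom G f = 0) :
    f = 0 ∨ (∀ w, 0 < f w) ∨ (∀ w, f w < 0) := by
  rcases eq_zero_or_pos_or_neg (isSignPattern_signMat G) (isKer_of_mem_ker G hf) with h | h | h
  · left
    funext w
    have h0 : ((f w : ℤ) : ℝ) = 0 := congrFun h w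
    show f w = 0
    exact_mod_cast h0
  · right; left
    intro w
    exact_mod_cast h w
  · right; right
    intro w
    exact_mod_cast h w

theorem eq_zero_of_ker_of_apply_eq_zero {f : InfinitePlace L → ℤ} (hf : unitHom G f = 0)
    {w : InfinitePlace L} (h : f w = 0) : f = 0 := by
  rcases ker_trichotomy G hf with h' | h' | h'
  · exact h'
  · exact absurd h (h' w).ne'
  · exact absurd h (h' w).ne

theorem ker_ne_bot : LinearMap.ker (unitHom (L := L) G) ≠ ⊥ := by
  intro h
  have hinj := LinearMap.ker_eq_bot.1 h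
  have h1 := LinearMap.finrank_le_finrank_of_injective hinj
  rw [Module.finrank_fintype_fun_eq_card, Units.finrank_eq, Units.rank] at h1
  have : 0 < Fintype.card (InfinitePlace L) := Fintype.card_pos
  omega

/-- the kernel is generated by a positive invariant vector -/
theorem exists_ker_generator :
    ∃ c : InfinitePlace L → ℤ, (∀ w, 0 < c w) ∧ (∀ σ : G, permFun G σ c = c) ∧
      LinearMap.ker (unitHom (L := L) G) = Submodule.span ℤ {c} := by
  classical
  obtain ⟨w₁⟩ : Nonempty (InfinitePlace L) := inferInstance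
  set K := LinearMap.ker (unitHom (L := L) G) with hK
  -- the image of the projection to the `w₁` coordinate
  set π : K →ₗ[ℤ] ℤ := (LinearMap.proj w₁).comp K.subtype with hπ
  obtain ⟨m, hm⟩ := (IsPrincipalIdealRing.principal (LinearMap.range π : Ideal ℤ)).principal
  have hm_mem : m ∈ LinearMap.range π := by rw [hm]; exact Submodule.mem_span_singleton_self m
  obtain ⟨⟨c₀, hc₀K⟩, hc₀⟩ := hm_mem
  have hc₀w : c₀ w₁ = m := hc₀
  have hc₀ker : unitHom G c₀ = 0 := hc₀K
  -- every kernel element is a multiple of `c₀`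
  have hmult : ∀ f : InfinitePlace L → ℤ, unitHom G f = 0 → ∃ k : ℤ, f = k • c₀ := by
    intro f hf
    have hfm : π ⟨f, hf⟩ ∈ Submodule.span ℤ {m} := by rw [← hm]; exact ⟨_, rfl⟩
    obtain ⟨k, hk⟩ := Submodule.mem_span_singleton.1 hfm
    refine ⟨k, ?_⟩
    have hker : unitHom G (f - k • c₀) = 0 := by rw [map_sub, map_smul, hf, hc₀ker, smul_zero, sub_zero]
    have h0 : (f - k • c₀) w₁ = 0 := by
      have : f w₁ = k • m := hk.symm
      simp only [Pi.sub_apply, Pi.smul_apply, hc₀w, this, sub_self]
    exact sub_eq_zero.1 (eq_zero_of_ker_of_apply_eq_zero G hker h0)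
  -- `c₀ ≠ 0`
  have hc₀ne : c₀ ≠ 0 := by
    intro h0
    apply ker_ne_bot (L := L) G
    rw [eq_bot_iff]
    intro f hf
    obtain ⟨k, hk⟩ := hmult f hf
    rw [Submodule.mem_bot, hk, h0, smul_zero]
  -- choose the sign
  have hspan_le : ∀ c : InfinitePlace L → ℤ, (c = c₀ ∨ c = -c₀) → K = Submodule.span ℤ {c} := by
    intro c hc
    apply le_antisymm
    · intro f hf
      obtain ⟨k, hk⟩ := hmult f hf
      rw [Submodule.mem_span_singleton]
      rcases hc with rfl | rfl
      · exact ⟨k, hk.symm⟩
      · exact ⟨-k, by rw [hk]; simp⟩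
    · rw [Submodule.span_le, Set.singleton_subset_iff]
      rcases hc with rfl | rfl
      · exact hc₀K
      · exact K.neg_mem hc₀K
  have hinv : ∀ c : InfinitePlace L → ℤ, (∀ w, 0 < c w) → K = Submodule.span ℤ {c} →
      ∀ σ : G, permFun G σ c = c := by
    intro c hcpos hKc σ
    have hcK : c ∈ K := by rw [hKc]; exact Submodule.mem_span_singleton_self c
    have hσ : permFun G σ c ∈ K := by
      show unitHom G (permFun G σ c) = 0
      rw [unitHom_permFun, (show unitHom G c = 0 from hcK), map_zero]
    rw [hKc] at hσ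
    obtain ⟨k, hk⟩ := Submodule.mem_span_singleton.1 hσ
    have hsum : ∑ w, permFun G σ c w = ∑ w, c w := by
      apply Fintype.sum_equiv (infPerm σ⁻¹)
      intro w
      rfl
    have hsum2 : ∑ w, permFun G σ c w = k * ∑ w, c w := by
      rw [← hk, Finset.mul_sum]
      simp
    have hpos : 0 < ∑ w, c w :=
      Finset.sum_pos (fun w _ => hcpos w) Finset.univ_nonempty
    have hk1 : k = 1 := by
      have : k * ∑ w, c w = 1 * ∑ w, c w := by rw [← hsum2, hsum, one_mul]
      exact mul_right_cancel₀ hpos.ne' this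
    rw [← hk, hk1, one_smul]
  rcases ker_trichotomy G hc₀ker with h | h | h
  · exact absurd h hc₀ne
  · exact ⟨c₀, h, hinv c₀ h (hspan_le c₀ (Or.inl rfl)), hspan_le c₀ (Or.inl rfl)⟩
  · have hneg : ∀ w, 0 < (-c₀) w := fun w => by simpa using h w
    exact ⟨-c₀, hneg, hinv (-c₀) hneg (hspan_le (-c₀) (Or.inr rfl)), hspan_le (-c₀) (Or.inr rfl)⟩

/-- the cokernel of `unitHom` is finite -/
theorem finite_quotient_range :
    Finite (Additive (𝓞 L)ˣ ⧸ LinearMap.range (unitHom (L := L) G)) := by
  classical
  obtain ⟨c, hcpos, -, hKc⟩ := exists_ker_generator (L := L) G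
  obtain ⟨w₁⟩ : Nonempty (InfinitePlace L) := inferInstance
  have hc0 : c ≠ 0 := by
    intro h
    have := hcpos w₁
    rw [h] at this
    simp at this
  have hker : Module.finrank ℤ (LinearMap.ker (unitHom (L := L) G)) = 1 := by
    rw [hKc]
    have e := LinearEquiv.toSpanNonzeroSingleton ℤ (InfinitePlace L → ℤ) c hc0
    rw [← e.finrank_eq, Module.finrank_self]
  have hquot := Submodule.finrank_quotient_add_finrank (LinearMap.ker (unitHom (L := L) G))
  rw [hker, Module.finrank_fintype_fun_eq_card] at hquot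
  have hrange : Module.finrank ℤ (LinearMap.range (unitHom (L := L) G)) =
      Fintype.card (InfinitePlace L) - 1 := by
    rw [← (LinearMap.quotKerEquivRange (unitHom (L := L) G)).finrank_eq]
    omega
  have hq2 := Submodule.finrank_quotient_add_finrank (LinearMap.range (unitHom (L := L) G))
  rw [hrange, Units.finrank_eq, Units.rank] at hq2
  have hzero : Module.finrank ℤ (Additive (𝓞 L)ˣ ⧸ LinearMap.range (unitHom (L := L) G)) = 0 := by
    omega
  have htors := Module.finrank_eq_zero_iff_isTorsion.1 hzero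
  have : AddGroup.FG (Additive (𝓞 L)ˣ ⧸ LinearMap.range (unitHom (L := L) G)) :=
    Module.Finite.iff_addGroup_fg.1 inferInstance
  apply AddCommGroup.finite_of_fg_isAddTorsion
  intro x
  obtain ⟨a, ha⟩ := @htors x
  have ha0 : (a : ℤ) ≠ 0 := nonZeroDivisors.coe_ne_zero a
  rw [isOfFinAddOrder_iff_nsmul_eq_zero]
  refine ⟨(a : ℤ).natAbs, Int.natAbs_pos.2 ha0, ?_⟩
  have h1 : (a : ℤ) • x = 0 := ha
  rcases Int.natAbs_eq (a : ℤ) with h | h
  · rw [h] at h1
    simpa using h1
  · rw [h] at h1
    simpa using h1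

theorem range_finiteIndex : (LinearMap.range (unitHom (L := L) G)).toAddSubgroup.FiniteIndex := by
  have h := finite_quotient_range (L := L) G
  exact @AddSubgroup.finiteIndex_of_finite_quotient _ _ _ h

end Fermat.Agent.S55.SUnit1.Units
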