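/-
S55 leaf 16-SUNIT (helper1), part (A): the Herbrand quotient of the unit group `𝓞_L^×` for a finite
cyclic group `G = ⟨g₀⟩` acting on a number field `L`:
`q(ℤ[places at ∞]) = |G| · q(𝓞_L^×)`, and `q(𝓞_L^×)` is defined.
-/
import Mathlib
import Fermat.Agent.S55.Herbrand54
import Fermat.Agent.S55.HerbrandCyclic54
import Fermat.Agent.S55.SUnit1.Units
import Fermat.Agent.S55.SUnit1.HomSES
import Fermat.Agent.S55.SUnit1.PermOrbits

set_option autoImplicit false

namespace Fermat.Agent.S55.SUnit1.QUnits

open NumberField Fermat.Agent.S55.Herbrand54 Fermat.Agent.S55.HerbrandCyclic54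
  Fermat.Agent.S55.SUnit1.Places Fermat.Agent.S55.SUnit1.Units Fermat.Agent.S55.SUnit1.HomSES
  Fermat.Agent.S55.SUnit1.PermOrbits

variable {L : Type*} [Field L] [NumberField L] (G : Type*) [Group G] [MulSemiringAction G L]

/-- the action of `G` on the infinite places of `L`: `(σ w)(x) = w(σ⁻¹ x)` -/
@[reducible] noncomputable def infMulAction : MulAction G (InfinitePlace L) where
  smul := infSmul
  one_smul := infSmul_one
  mul_smul := infSmul_mul

variable [Fintype G]

/-- the action of `G` on the units of `L`, additively -/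
noncomputable def unitRho : G →* AddMonoid.End (Additive (𝓞 L)ˣ) where
  toFun σ := addUnitSmul G σ
  map_one' := by
    apply AddMonoidHom.ext
    intro x
    exact congrArg Additive.ofMul (unitSmul_one (G := G) (Additive.toMul x))
  map_mul' σ τ := by
    apply AddMonoidHom.ext
    intro x
    exact congrArg Additive.ofMul (unitSmul_mul σ τ (Additive.toMul x))

omit [Fintype G] in
theorem unitRho_apply (σ : G) (x : Additive (𝓞 L)ˣ) :
    unitRho G σ x = Additive.ofMul (unitSmul σ (Additive.toMul x)) := rfl

attribute [local instance] infMulAction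

/-- the action of `G` on `ℤ[places at ∞]` -/
noncomputable abbrev infRho : G →* AddMonoid.End (InfinitePlace L → ℤ) :=
  permRho G (InfinitePlace L) ℤ

omit [Fintype G] in
theorem infRho_apply (σ : G) (f : InfinitePlace L → ℤ) : infRho G σ f = permFun G σ f := rfl

/-- `unitHom` as a morphism of cyclic pairs -/
noncomputable def unitPairHom (g₀ : G) :
    Pair.Hom (cyclicPair (infRho (L := L) G) g₀) (cyclicPair (unitRho (L := L) G) g₀) :=
  homOfEquivariant _ _ g₀ (unitHom G).toAddMonoidHom (fun τ f => unitHom_permFun G τ f)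

theorem mem_ker_unitPairHom (g₀ : G) (x : InfinitePlace L → ℤ) :
    x ∈ (unitPairHom (L := L) G g₀).toFun.ker ↔ unitHom G x = 0 := Iff.rfl

/-- the kernel of `unitHom` is stable under `G` -/
theorem ker_stable (g₀ : G) (τ : G) (x : InfinitePlace L → ℤ)
    (hx : x ∈ (unitPairHom (L := L) G g₀).toFun.ker) :
    infRho G τ x ∈ (unitPairHom (L := L) G g₀).toFun.ker := by
  rw [mem_ker_unitPairHom] at hx ⊢
  rw [infRho_apply, unitHom_permFun, hx, map_zero]

/-- `G` acts trivially on the kernel of `unitHom` -/
theorem ker_trivial (g₀ : G) (τ : G) (x : InfinitePlace L → ℤ)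
    (hx : x ∈ (unitPairHom (L := L) G g₀).toFun.ker) : infRho G τ x = x := by
  obtain ⟨c, -, hc, hker⟩ := exists_ker_generator (L := L) G
  have hx' : x ∈ LinearMap.ker (unitHom (L := L) G) := hx
  rw [hker, Submodule.mem_span_singleton] at hx'
  obtain ⟨k, rfl⟩ := hx'
  rw [map_zsmul, infRho_apply, hc]

/-- the kernel of `unitHom` is infinite cyclic -/
theorem exists_ker_equiv_int (g₀ : G) :
    Nonempty ((unitPairHom (L := L) G g₀).toFun.ker ≃+ ℤ) := by
  obtain ⟨c, hpos, -, hker⟩ := exists_ker_generator (L := L) G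
  have hmem : ∀ x : InfinitePlace L → ℤ,
      x ∈ (unitPairHom (L := L) G g₀).toFun.ker ↔ ∃ k : ℤ, k • c = x := by
    intro x
    have : x ∈ (unitPairHom (L := L) G g₀).toFun.ker ↔ x ∈ LinearMap.ker (unitHom (L := L) G) :=
      Iff.rfl
    rw [this, hker, Submodule.mem_span_singleton]
  let ι : ℤ →+ (unitPairHom (L := L) G g₀).toFun.ker :=
    (((smulAddHom ℤ (InfinitePlace L → ℤ)).flip c)).codRestrict _ (fun k => (hmem _).2 ⟨k, rfl⟩)
  have hι : ∀ k : ℤ, ((ι k : (unitPairHom (L := L) G g₀).toFun.ker) : InfinitePlace L → ℤ)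
      = k • c := fun k => rfl
  have hbij : Function.Bijective ι := by
    constructor
    · rw [injective_iff_map_eq_zero]
      intro k hk
      have h1 : k • c = 0 := by rw [← hι, hk]; rfl
      obtain ⟨w⟩ : Nonempty (InfinitePlace L) := inferInstance
      have h2 : k * c w = 0 := by
        have := congrFun h1 w
        simpa using this
      rcases mul_eq_zero.1 h2 with h | h
      · exact h
      · exact absurd h (hpos w).ne'
    · intro x
      obtain ⟨k, hk⟩ := (hmem x.1).1 x.2
      exact ⟨k, Subtype.ext hk⟩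
  exact ⟨(AddEquiv.ofBijective ι hbij).symm⟩

section Main

variable {G}
variable {g₀ : G}

/-- the kernel pair of `unitHom` has Herbrand quotient `|G|` -/
theorem kerPair_isDefined_and_q :
    (kerPair (unitPairHom (L := L) G g₀)).IsDefined ∧
      (kerPair (unitPairHom (L := L) G g₀)).q = Nat.card G := by
  obtain ⟨e⟩ := exists_ker_equiv_int (L := L) G g₀
  have hK := ker_stable (L := L) G g₀
  have I := isoRestrict (infRho (L := L) G) g₀ (unitPairHom (L := L) G g₀).toFun.ker hK
    (f_mem_ker (unitPairHom (L := L) G g₀)) (g_mem_ker (unitPairHom (L := L) G g₀))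
  have htriv : ∀ (τ : G) (x : (unitPairHom (L := L) G g₀).toFun.ker),
      rhoRestrict (infRho (L := L) G) _ hK τ x = x := by
    intro τ x
    apply Subtype.ext
    rw [coe_rhoRestrict_apply]
    exact ker_trivial G g₀ τ x.1 x.2
  constructor
  · exact I.isDefined_iff.1 (isDefined_of_trivial_int _ g₀ htriv e)
  · have := I.q_eq
    rw [q_of_trivial_int _ g₀ htriv e] at this
    exact this.symm

instance range_unitPairHom_finiteIndex : (unitPairHom (L := L) G g₀).toFun.range.FiniteIndex :=
  range_finiteIndex (L := L) G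

variable (hg : ∀ τ : G, τ ∈ Subgroup.zpowers g₀)

include hg

/-- the Herbrand quotient of the units is defined -/
theorem units_isDefined : (cyclicPair (unitRho (L := L) G) g₀).IsDefined :=
  (isDefined_iff_of_hom (unitPairHom (L := L) G g₀) kerPair_isDefined_and_q.1).1
    (isDefined_perm hg)

/-- `q(ℤ[places at ∞]) = |G| · q(𝓞_L^×)` -/
theorem q_inf_eq :
    (cyclicPair (infRho (L := L) G) g₀).q =
      Nat.card G * (cyclicPair (unitRho (L := L) G) g₀).q := by
  rw [q_eq_of_hom (unitPairHom (L := L) G g₀) kerPair_isDefined_and_q.1 (units_isDefined hg),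
    kerPair_isDefined_and_q.2]

end Main

end Fermat.Agent.S55.SUnit1.QUnits
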